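/-
GATE-B (S38/S43) / CASE A, node GB-A5-DESC, leaf N1 (helper28): **the norm commutes with the
reduction for an inert extension of valuation rings** (Mathlib only).

`F'/F` finite, `V ⊂ F`, `V' ⊂ F'` valuation rings (NOT assumed discrete) with `V' ∩ F = V`,
reductions `ρ : V → k`, `ρ' : V' → k'` (`ρ'` onto, `ker ρ = 𝔪_V`), compatible with `k → k'`, and
`[F' : F] = [k' : k]`.  Then for `u' ∈ V'`:  `N_{F'/F} u' ∈ V` and `ρ (N_{F'/F} u') = N_{k'/k} (ρ' u')`.

Proof: lifts `b_i ∈ V'` of a `k`-basis of `k'` are an `F`-basis of `F'` and a `V`-basis of `V'`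
(scale a relation by its coefficient of largest valuation), so the matrix of the multiplication by
`u'` has entries in `V` and reduces to the matrix of the multiplication by `ρ' u'`.
-/
import Mathlib

set_option autoImplicit false

noncomputable section

namespace Fermat.Agent.GB.A.Desc.NormRed

open IsLocalRing

/-! ### scaling by the coefficient of largest valuation -/

section Scale

variable {F : Type*} [Field F] (V : ValuationSubring F)

theorem exists_scale {ι : Type*} [Fintype ι] (a : ι → F) {i₀ : ι} (h0 : a i₀ ≠ 0) :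
    ∃ j, a j ≠ 0 ∧ V.valuation (a i₀) ≤ V.valuation (a j) ∧ ∀ i, a i / a j ∈ V := by
  obtain ⟨j, -, hj⟩ := Finset.exists_max_image Finset.univ (fun i => V.valuation (a i))
    ⟨i₀, Finset.mem_univ _⟩
  have hj0 : a j ≠ 0 := by
    intro h
    have h1 := hj i₀ (Finset.mem_univ _)
    simp only [h, map_zero] at h1
    exact h0 ((map_eq_zero _).1 (le_antisymm h1 zero_le))
  refine ⟨j, hj0, hj i₀ (Finset.mem_univ _), fun i => ?_⟩
  rw [← ValuationSubring.valuation_le_one_iff, map_div₀]
  have hpos : 0 < V.valuation (a j) := by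
    rw [pos_iff_ne_zero]
    exact (map_ne_zero _).2 hj0
  exact (div_le_one₀ hpos).2 (hj i (Finset.mem_univ _))

end Scale

/-! ### the inert extension -/

section Main

variable {F F' k k' : Type*} [Field F] [Field F'] [Field k] [Field k'] [Algebra F F']
  [Algebra k k'] (V : ValuationSubring F) (V' : ValuationSubring F')
  (hVV' : ∀ x : F, algebraMap F F' x ∈ V' ↔ x ∈ V) (ρ : V →+* k) (ρ' : V' →+* k')
  (hcompat : ∀ x : V, ρ' ⟨algebraMap F F' x, (hVV' x).2 x.2⟩ = algebraMap k k' (ρ x))

include hcompat in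
/-- reduction of a `V`-linear combination -/
theorem red_sum {n : ℕ} (b : Fin n → V') (c : Fin n → V) (y : V')
    (hy : (y : F') = ∑ i, algebraMap F F' (c i) * (b i : F')) :
    ρ' y = ∑ i, algebraMap k k' (ρ (c i)) * ρ' (b i) := by
  have e : y = ∑ i, (⟨algebraMap F F' (c i), (hVV' _).2 (c i).2⟩ : V') * b i := by
    apply Subtype.ext
    rw [hy]
    show _ = V'.subtype (∑ i, (⟨algebraMap F F' (c i), (hVV' _).2 (c i).2⟩ : V') * b i)
    rw [map_sum]
    rfl
  rw [e, map_sum]
  refine Finset.sum_congr rfl fun i _ => ?_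
  rw [map_mul, hcompat]

variable (hker : ∀ x : V, ρ x = 0 ↔ x ∈ maximalIdeal V)

include hcompat in
/-- a relation with coefficients in `V`, one of which is `1`, between lifts of a basis reduces to
a non-trivial relation -/
theorem false_of_relation {n : ℕ} (bb : Module.Basis (Fin n) k k') (b : Fin n → V')
    (hb : ∀ i, ρ' (b i) = bb i) (c : Fin n → V) (j : Fin n) (hj : c j = 1) (y : V')
    (hy : (y : F') = ∑ i, algebraMap F F' (c i) * (b i : F')) (hy0 : ρ' y = 0) : False := by
  have h1 := red_sum V V' hVV' ρ ρ' hcompat b c y hy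
  rw [hy0] at h1
  have h2 : ∑ i, ρ (c i) • bb i = 0 := by
    rw [h1]
    refine Finset.sum_congr rfl fun i _ => ?_
    rw [hb, Algebra.smul_def]
  have h3 := Fintype.linearIndependent_iff.1 bb.linearIndependent (fun i => ρ (c i)) h2 j
  rw [hj, map_one] at h3
  exact one_ne_zero h3

include hcompat in
/-- lifts of a `k`-basis of `k'` are `F`-linearly independent -/
theorem linearIndependent_lift {n : ℕ} (bb : Module.Basis (Fin n) k k') (b : Fin n → V')
    (hb : ∀ i, ρ' (b i) = bb i) : LinearIndependent F fun i => (b i : F') := by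
  rw [Fintype.linearIndependent_iff]
  intro g hg
  by_contra hne
  push Not at hne
  obtain ⟨i₀, hi₀⟩ := hne
  obtain ⟨j, hj0, -, hjV⟩ := exists_scale V g hi₀
  refine false_of_relation V V' hVV' ρ ρ' hcompat bb b hb (fun i => ⟨g i / g j, hjV i⟩) j
    (Subtype.ext (div_self hj0)) 0 ?_ (map_zero ρ')
  have h1 : ∑ i, algebraMap F F' (g i / g j) * (b i : F') =
      algebraMap F F' (g j)⁻¹ * ∑ i, g i • (b i : F') := by
    rw [Finset.mul_sum]
    refine Finset.sum_congr rfl fun i _ => ?_
    rw [Algebra.smul_def, div_eq_mul_inv, map_mul]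
    ring
  show ((0 : V') : F') = _
  rw [h1, hg, mul_zero]
  rfl

/-- the `F`-basis of `F'` lifting a `k`-basis of `k'` -/
def liftBasis {n : ℕ} [Nonempty (Fin n)] (b : Fin n → V')
    (hli : LinearIndependent F fun i => (b i : F'))
    (hn : Fintype.card (Fin n) = Module.finrank F F') : Module.Basis (Fin n) F F' :=
  basisOfLinearIndependentOfCardEqFinrank hli hn

theorem liftBasis_apply {n : ℕ} [Nonempty (Fin n)] (b : Fin n → V')
    (hli : LinearIndependent F fun i => (b i : F'))
    (hn : Fintype.card (Fin n) = Module.finrank F F') (i : Fin n) :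
    liftBasis V' b hli hn i = (b i : F') := by
  unfold liftBasis
  rw [coe_basisOfLinearIndependentOfCardEqFinrank]

include hcompat hker in
/-- the coordinates of an element of `V'` in the lifted basis lie in `V` -/
theorem repr_mem {n : ℕ} (bb : Module.Basis (Fin n) k k') (b : Fin n → V')
    (hb : ∀ i, ρ' (b i) = bb i) (B : Module.Basis (Fin n) F F') (hB : ∀ i, B i = (b i : F'))
    (x : V') (i : Fin n) : B.repr (x : F') i ∈ V := by
  by_contra hi
  set g : Fin n → F := fun i => B.repr (x : F') i with hg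
  have hi0 : g i ≠ 0 := fun h => hi (by rw [show B.repr (x : F') i = g i from rfl, h]; exact V.zero_mem)
  obtain ⟨j, hj0, hij, hjV⟩ := exists_scale V g hi0
  -- `g j ∉ V`, so `(g j)⁻¹ ∈ 𝔪_V`
  have hjV' : ¬ g j ∈ V := by
    rw [← ValuationSubring.valuation_le_one_iff] at hi ⊢
    exact fun h => hi (hij.trans h)
  have hinv : (g j)⁻¹ ∈ V := (V.mem_or_inv_mem (g j)).resolve_left hjV'
  have hmax : (⟨(g j)⁻¹, hinv⟩ : V) ∈ maximalIdeal V := by
    rw [ValuationSubring.valuation_lt_one_iff]
    show V.valuation (g j)⁻¹ < 1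
    rw [map_inv₀]
    have h1 : 1 < V.valuation (g j) :=
      not_le.1 (mt (ValuationSubring.valuation_le_one_iff V (g j)).1 hjV')
    exact inv_lt_one_of_one_lt₀ h1
  have hx : (x : F') = ∑ i, g i • B i := by
    have := B.sum_repr (x : F')
    exact this.symm
  refine false_of_relation V V' hVV' ρ ρ' hcompat bb b hb (fun i => ⟨g i / g j, hjV i⟩) j
    (Subtype.ext (div_self hj0)) (⟨algebraMap F F' (g j)⁻¹, (hVV' _).2 hinv⟩ * x) ?_ ?_
  · show algebraMap F F' (g j)⁻¹ * (x : F') = ∑ i, algebraMap F F' (g i / g j) * (b i : F')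
    rw [hx, Finset.mul_sum]
    refine Finset.sum_congr rfl fun i _ => ?_
    rw [Algebra.smul_def, div_eq_mul_inv, map_mul, hB]
    ring
  · rw [map_mul, hcompat ⟨(g j)⁻¹, hinv⟩, (hker _).2 hmax, map_zero, zero_mul]

variable [FiniteDimensional k k']
  (hρ' : Function.Surjective ρ')
  (hdeg : Module.finrank F F' = Module.finrank k k')

include hcompat hker hρ' hdeg in
/-- **the norm commutes with the reduction** (inert extension of valuation rings) -/
theorem norm_mem_and_red (u' : V') :
    ∃ h : Algebra.norm F (u' : F') ∈ V,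
      ρ ⟨Algebra.norm F (u' : F'), h⟩ = Algebra.norm k (ρ' u') := by
  classical
  set n := Module.finrank k k' with hn
  have hnpos : 0 < n := Module.finrank_pos
  have : Nonempty (Fin n) := ⟨⟨0, hnpos⟩⟩
  let bb : Module.Basis (Fin n) k k' := Module.finBasis k k'
  choose b hb using fun i => hρ' (bb i)
  have hli := linearIndependent_lift V V' hVV' ρ ρ' hcompat bb b hb
  have hcard : Fintype.card (Fin n) = Module.finrank F F' := by rw [Fintype.card_fin, hdeg]
  let B := liftBasis V' b hli hcard
  have hB : ∀ i, B i = (b i : F') := liftBasis_apply V' b hli hcard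
  -- the matrix of the multiplication by `u'` has entries in `V`
  let AV : Matrix (Fin n) (Fin n) V := fun i j =>
    ⟨B.repr ((u' * b j : V') : F') i,
      repr_mem V V' hVV' ρ ρ' hcompat hker bb b hb B hB (u' * b j) i⟩
  have hA : Algebra.leftMulMatrix B (u' : F') = AV.map V.subtype := by
    ext i j
    rw [Algebra.leftMulMatrix_eq_repr_mul, hB]
    rfl
  have hnorm : Algebra.norm F (u' : F') = ((AV.det : V) : F) := by
    rw [Algebra.norm_eq_matrix_det B, hA]
    exact (RingHom.map_det V.subtype AV).symm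
  have hmem : Algebra.norm F (u' : F') ∈ V := by
    rw [hnorm]
    exact (AV.det).2
  refine ⟨hmem, ?_⟩
  have e : (⟨Algebra.norm F (u' : F'), hmem⟩ : V) = AV.det := Subtype.ext hnorm
  rw [e]
  -- the reduced matrix is the matrix of the multiplication by `ρ' u'`
  have hcol : ∀ j, ρ' u' * bb j = ∑ i, ρ (AV i j) • bb i := by
    intro j
    have hy : ((u' * b j : V') : F') = ∑ i, algebraMap F F' ((AV i j : V) : F) * (b i : F') := by
      have h1 := B.sum_repr ((u' * b j : V') : F')
      rw [← h1]
      refine Finset.sum_congr rfl fun i _ => ?_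
      rw [Algebra.smul_def, hB]
    have h2 := red_sum V V' hVV' ρ ρ' hcompat b (fun i => AV i j) (u' * b j) hy
    rw [map_mul, hb] at h2
    rw [h2]
    refine Finset.sum_congr rfl fun i _ => ?_
    rw [hb, Algebra.smul_def]
  have hred : Algebra.leftMulMatrix bb (ρ' u') = AV.map ρ := by
    ext i j
    rw [Algebra.leftMulMatrix_eq_repr_mul, hcol j, bb.repr_sum_self]
    rfl
  rw [Algebra.norm_eq_matrix_det bb, hred]
  exact RingHom.map_det ρ AV

include hcompat hker hρ' hdeg in
/-- the case of an element whose reduction lies in the small residue field: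
`ρ (N u') = x ^ [k' : k]` -/
theorem norm_red_of_algebraMap (u' : V') (x : k) (hx : ρ' u' = algebraMap k k' x) :
    ∃ h : Algebra.norm F (u' : F') ∈ V,
      ρ ⟨Algebra.norm F (u' : F'), h⟩ = x ^ Module.finrank k k' := by
  obtain ⟨h, hn⟩ := norm_mem_and_red V V' hVV' ρ ρ' hcompat hker hρ' hdeg u'
  refine ⟨h, ?_⟩
  rw [hn, hx, Algebra.norm_algebraMap]

end Main

end Fermat.Agent.GB.A.Desc.NormRed
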