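/-
GATE-B / CASE A / GB-A-DESC-RESDEG (helper81) = leaf (P3) of helper28's descent of `NodeHyp`
(board 5446).

`q` a prime, `A` a valuation subring of `ℚ̄` over `q`, `M` a level with `q ∥ M`
(`h : ExactDvd q M`), `k` the residue field of `A`.  Inside `k((Q))`:

* `FresBar_eq_fullC_of_exactDvd` : `FresBar M A = k(j(Q^d) : d ∣ N')` for `M = N' q`;
* `exactDvd_mul` / `exactDvd_mul_two` : `q ∥ M`, `q ∤ a` (resp. `q` odd) ⟹ `q ∥ M a` (resp. `M·2`);
* `FresBar_le_mul`      : `FresBar M A ≤ FresBar (M * a) A` for `q ∤ a`;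
* `FresBar_le_mul_two`  : `FresBar M A ≤ FresBar (M * 2) A` for `q` odd;
* `dedekindPsi_mul_two_le` : `ψ(2 N) ≤ 3 ψ(N)`;
* `relfinrank_FresBar_mul_two_le` : `[FresBar (M·2) A : FresBar M A] ≤ 3`;
* `isSeparable_FresBar_of_le` : `FresBar L A / FresBar M A` is separable for EVERY pair of levels with
  `FresBar M A ≤ FresBar L A` (both are finite separable over `k(j~)`, `ord_Q j~ = -1`);
* `isSeparable_FresBar_mul_two`, `finiteDimensional_FresBar_mul_two`, `finrank_FresBar_mul_two_le`: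
  the same facts for the algebra structure `(IntermediateField.inclusion hle).toAlgebra`.
-/
import Mathlib
import Fermat.Agent.GK.Flat.PsiFNGood
import Fermat.Agent.GK.Val.Degrees
import Fermat.Agent.GJ.J1.RiemannFibres
import Fermat.Agent.GJ.J1.Haupt.ChartRed

set_option autoImplicit false
set_option linter.style.haveILetI false
set_option linter.unusedSectionVars false

noncomputable section

namespace Fermat.Agent.GB.A.Desc.ResDeg

open IntermediateField IsLocalRing ModularCurve HahnSeries Polynomial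
open Fermat.Agent.S24 Fermat.Agent.GJ.J1 Fermat.Agent.GJ.J1.Val Fermat.Agent.GJ.J1.Haupt
open Fermat.Agent.GK.AL

local notation "Kbar'" => AlgebraicClosure ℚ

/-! ### generic: separability inside an ambient field -/

section Generic

variable {k Ω : Type*} [Field k] [Field Ω] [Algebra k Ω]

/-- top of a separable tower of intermediate fields of an ambient field, for the inclusion algebra
structures -/
theorem isSeparable_inclusion_top (E0 E1 E2 : IntermediateField k Ω) (h01 : E0 ≤ E1)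
    (h12 : E1 ≤ E2)
    (hsep : @Algebra.IsSeparable E0 E2 _ _ (inclusion (h01.trans h12)).toRingHom.toAlgebra) :
    @Algebra.IsSeparable E1 E2 _ _ (inclusion h12).toRingHom.toAlgebra := by
  letI a02 : Algebra E0 E2 := (inclusion (h01.trans h12)).toRingHom.toAlgebra
  letI a01 : Algebra E0 E1 := (inclusion h01).toRingHom.toAlgebra
  letI a12 : Algebra E1 E2 := (inclusion h12).toRingHom.toAlgebra
  haveI : IsScalarTower E0 E1 E2 := IsScalarTower.of_algebraMap_eq (fun x => rfl)
  haveI : Algebra.IsSeparable E0 E2 := hsep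
  exact Algebra.isSeparable_tower_top_of_isSeparable E0 E1 E2

/-- `E / k(z)` separable (subfield algebra inside `E`) ⟹ separable for the inclusion algebra of
`k(z) ≤ E` inside the ambient field -/
theorem isSeparable_inclusion_adjoin (E : IntermediateField k Ω) (z : E)
    (hsep : Algebra.IsSeparable k⟮z⟯ E) (hle : k⟮(z : Ω)⟯ ≤ E) :
    @Algebra.IsSeparable (k⟮(z : Ω)⟯ : IntermediateField k Ω) E _ _
      (inclusion hle).toRingHom.toAlgebra := by
  letI a : Algebra (k⟮(z : Ω)⟯ : IntermediateField k Ω) E := (inclusion hle).toRingHom.toAlgebra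
  have h1 : IntermediateField.lift (k⟮z⟯ : IntermediateField k E) = k⟮(z : Ω)⟯ :=
    IntermediateField.lift_adjoin_simple k E z
  let e₁ : (k⟮z⟯ : IntermediateField k E) ≃+* (k⟮(z : Ω)⟯ : IntermediateField k Ω) :=
    ((IntermediateField.liftAlgEquiv (k⟮z⟯ : IntermediateField k E)).trans
      (IntermediateField.equivOfEq h1)).toRingEquiv
  haveI := hsep
  refine Algebra.IsSeparable.of_equiv_equiv e₁ (RingEquiv.refl E) ?_
  refine RingHom.ext fun y => ?_
  apply Subtype.ext
  rfl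

/-- `[E2 : E1]` for the inclusion algebra is the relative finrank -/
theorem finrank_inclusion_eq_relfinrank (E1 E2 : IntermediateField k Ω) (h12 : E1 ≤ E2) :
    @Module.finrank E1 E2 _ _ (inclusion h12).toRingHom.toAlgebra.toModule = relfinrank E1 E2 := by
  letI a12 : Algebra E1 E2 := (inclusion h12).toRingHom.toAlgebra
  rw [relfinrank_eq_finrank_of_le h12]
  let e : E2 ≃ₗ[E1] (extendScalars h12) :=
    { toFun := fun x => ⟨x.1, x.2⟩
      invFun := fun y => ⟨y.1, y.2⟩
      map_add' := fun _ _ => rfl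
      map_smul' := fun _ _ => rfl
      left_inv := fun _ => rfl
      right_inv := fun _ => rfl }
  exact e.finrank_eq

/-- finiteness for the inclusion algebra from a nonzero relative finrank -/
theorem finiteDimensional_inclusion (E1 E2 : IntermediateField k Ω) (h12 : E1 ≤ E2)
    (h0 : relfinrank E1 E2 ≠ 0) :
    @FiniteDimensional E1 E2 _ _ (inclusion h12).toRingHom.toAlgebra.toModule := by
  letI a12 : Algebra E1 E2 := (inclusion h12).toRingHom.toAlgebra
  rw [← finrank_inclusion_eq_relfinrank E1 E2 h12] at h0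
  exact Module.finite_of_finrank_pos (Nat.pos_of_ne_zero h0)

end Generic

/-! ### the residue fields of the Gauss valuation at `q ∥ M` -/

section Levels

variable (A : ValuationSubring Kbar')

local notation "𝕜" => ResidueField A

/-- `FresBar` only depends on the number `N` -/
theorem FresBar_congr {N₁ N₂ : ℕ} [NeZero N₁] [NeZero N₂] (h : N₁ = N₂) :
    FresBar N₁ A = FresBar N₂ A := by
  subst h
  rfl

variable {q : ℕ}

/-- `q ∥ M`, `q ∤ a` ⟹ `q ∥ M a` -/
theorem exactDvd_mul {M : ℕ} (h : ExactDvd q M) {a : ℕ} (ha : ¬ q ∣ a) : ExactDvd q (M * a) where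
  prime := h.prime
  dvd := Dvd.dvd.mul_right h.dvd a
  not_sq := fun hsq => by
    have hcop : Nat.Coprime (q ^ 2) a :=
      Nat.Coprime.pow_left 2 ((Nat.Prime.coprime_iff_not_dvd h.prime).mpr ha)
    exact h.not_sq (hcop.dvd_of_dvd_mul_right hsq)

/-- `q ∥ M`, `q` odd ⟹ `q ∥ M·2` -/
theorem exactDvd_mul_two {M : ℕ} (h : ExactDvd q M) (hq2 : q ≠ 2) : ExactDvd q (M * 2) :=
  exactDvd_mul h (fun hd => hq2 ((Nat.prime_dvd_prime_iff_eq h.prime Nat.prime_two).mp hd))

/-- **RES at `q ∥ M`**: for `M = N' q`, `FresBar M A = k(j(Q^d) : d ∣ N')` -/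
theorem FresBar_eq_fullC_of_exactDvd {M : ℕ} [NeZero M] (h : ExactDvd q M)
    (hA : A.LiesOverPrime q) (N' : ℕ) [NeZero N'] (hM : M = N' * q) :
    FresBar M A = modularFunctionFieldFullC 𝕜 N' := by
  subst hM
  haveI : Fact q.Prime := ⟨h.prime⟩
  haveI : NeZero q := ⟨h.prime.ne_zero⟩
  exact (Fermat.Agent.GK.PsiFNGood.FresBar_mul_eq A hA N' h).trans
    (Fermat.Agent.GJ.J1.Res.FresBar_eq_fullC N' A
      (Fermat.Agent.GK.PsiFNGood.not_dvd_good N' h) hA)

/-- the good part `N' = M / q` of a level `M` with `q ∥ M` -/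
theorem exists_good {M : ℕ} [NeZero M] (h : ExactDvd q M) :
    ∃ N' : ℕ, N' ≠ 0 ∧ M = N' * q ∧ ¬ q ∣ N' := by
  obtain ⟨N', hN'⟩ := h.dvd
  refine ⟨N', ?_, by rw [hN', mul_comm], ?_⟩
  · rintro rfl
    exact NeZero.ne M (by rw [hN', mul_zero])
  · intro hd
    apply h.not_sq
    rw [hN', pow_two]
    exact Nat.mul_dvd_mul dvd_rfl hd

/-- **`FresBar M A ≤ FresBar (M a) A`** for `q ∥ M`, `q ∤ a` -/
theorem FresBar_le_mul {M : ℕ} [NeZero M] (h : ExactDvd q M) (hA : A.LiesOverPrime q)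
    {a : ℕ} [NeZero (M * a)] (ha : ¬ q ∣ a) : FresBar M A ≤ FresBar (M * a) A := by
  obtain ⟨N', hN'0, hM, -⟩ := exists_good h
  haveI : NeZero N' := ⟨hN'0⟩
  have ha0 : a ≠ 0 := fun h0 => NeZero.ne (M * a) (by rw [h0, mul_zero])
  haveI : NeZero (N' * a) := ⟨mul_ne_zero hN'0 ha0⟩
  rw [FresBar_eq_fullC_of_exactDvd A h hA N' hM,
    FresBar_eq_fullC_of_exactDvd A (exactDvd_mul h ha) hA (N' * a) (by rw [hM]; ring)]
  exact full_degeneracyC_le 𝕜 (dvd_mul_right N' a)

/-- **`FresBar M A ≤ FresBar (M·2) A`** for `q ∥ M`, `q` odd -/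
theorem FresBar_le_mul_two {M : ℕ} [NeZero M] [NeZero (M * 2)] (h : ExactDvd q M)
    (hA : A.LiesOverPrime q) (hq2 : q ≠ 2) : FresBar M A ≤ FresBar (M * 2) A :=
  FresBar_le_mul A h hA
    (fun hd => hq2 ((Nat.prime_dvd_prime_iff_eq h.prime Nat.prime_two).mp hd))

end Levels

/-! ### the degree -/

section Degree

/-- `ψ(2^(a+1)) ≤ 3 ψ(2^a)` -/
theorem dedekindPsi_two_pow_succ_le (a : ℕ) :
    dedekindPsi (2 ^ (a + 1)) ≤ 3 * dedekindPsi (2 ^ a) := by
  rcases a with _ | b
  · have h1 := Fermat.Agent.S20_helper27.dedekindPsi_prime_pow Nat.prime_two (k := 1) one_pos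
    simp only [pow_one, Nat.sub_self, pow_zero] at h1
    simp only [zero_add, pow_one, pow_zero, dedekindPsi_one, h1]
    norm_num
  · have h1 := Fermat.Agent.S20_helper27.dedekindPsi_prime_pow Nat.prime_two (k := b + 1 + 1)
      (Nat.succ_pos _)
    have h2 := Fermat.Agent.S20_helper27.dedekindPsi_prime_pow Nat.prime_two (k := b + 1)
      (Nat.succ_pos _)
    rw [Nat.add_sub_cancel] at h1 h2
    rw [h1, h2]
    have e1 : 2 ^ (b + 1 + 1) = 4 * 2 ^ b := by ring
    have e2 : 2 ^ (b + 1) = 2 * 2 ^ b := by ring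
    rw [e1, e2]
    omega

/-- **`ψ(2 N) ≤ 3 ψ(N)`** -/
theorem dedekindPsi_mul_two_le (N : ℕ) (hN : N ≠ 0) :
    dedekindPsi (N * 2) ≤ 3 * dedekindPsi N := by
  obtain ⟨a, n, hn, rfl⟩ := Nat.exists_eq_two_pow_mul_odd hN
  have hcop : ∀ b : ℕ, Nat.Coprime (2 ^ b) n :=
    fun b => Nat.Coprime.pow_left b (Nat.coprime_two_left.mpr hn)
  have e : 2 ^ a * n * 2 = 2 ^ (a + 1) * n := by ring
  rw [e, Fermat.Agent.S20_helper27.dedekindPsi_mul (hcop (a + 1)),
    Fermat.Agent.S20_helper27.dedekindPsi_mul (hcop a), ← mul_assoc]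
  exact Nat.mul_le_mul_right _ (dedekindPsi_two_pow_succ_le a)

variable (A : ValuationSubring Kbar')

local notation "𝕜" => ResidueField A

variable {q : ℕ}

/-- `[FresBar M A : k(j~)] = ψ(M / q)` for `q ∥ M = N' q` -/
theorem relfinrank_FresBar_of_exactDvd {M : ℕ} [NeZero M] (h : ExactDvd q M)
    (hA : A.LiesOverPrime q) (N' : ℕ) [NeZero N'] (hM : M = N' * q) :
    relfinrank 𝕜⟮jqModC 𝕜⟯ (FresBar M A) = dedekindPsi N' := by
  subst hM
  haveI : Fact q.Prime := ⟨h.prime⟩
  haveI : NeZero q := ⟨h.prime.ne_zero⟩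
  rw [Fermat.Agent.GK.PsiFNGood.FresBar_mul_eq A hA N' h]
  exact Fermat.Agent.GK.Val.Degrees.relfinrank_FresBar N' q A
    (Fermat.Agent.GK.PsiFNGood.not_dvd_good N' h) hA

/-- **`[FresBar (M·2) A : FresBar M A] ≤ 3`** for `q ∥ M`, `q` odd -/
theorem relfinrank_FresBar_mul_two_le {M : ℕ} [NeZero M] [NeZero (M * 2)] (h : ExactDvd q M)
    (hA : A.LiesOverPrime q) (hq2 : q ≠ 2) :
    relfinrank (FresBar M A) (FresBar (M * 2) A) ≤ 3 := by
  obtain ⟨N', hN'0, hM, -⟩ := exists_good h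
  haveI : NeZero N' := ⟨hN'0⟩
  haveI : NeZero (N' * 2) := ⟨mul_ne_zero hN'0 two_ne_zero⟩
  have h1 := relfinrank_FresBar_of_exactDvd A h hA N' hM
  have h2 := relfinrank_FresBar_of_exactDvd A (exactDvd_mul_two h hq2) hA (N' * 2)
    (by rw [hM]; ring)
  have hle1 : 𝕜⟮jqModC 𝕜⟯ ≤ FresBar M A := by
    rw [adjoin_simple_le_iff]
    exact Fermat.Agent.GK.Val.Degrees.jqModC_mem_FresBar M A
  have hmul := relfinrank_mul_relfinrank hle1 (FresBar_le_mul_two A h hA hq2)
  rw [h1, h2] at hmul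
  have hψ : 0 < dedekindPsi N' := by
    rw [← Fermat.Agent.S24_helper62.finrank_FN N']
    have := Fermat.Agent.GJ.J1.Val.finiteDimensional_jF N'
    exact Module.finrank_pos
  have hle := dedekindPsi_mul_two_le N' hN'0
  rw [← hmul, mul_comm 3] at hle
  exact Nat.le_of_mul_le_mul_left hle hψ

/-- `[FresBar (M·2) A : FresBar M A] ≠ 0` -/
theorem relfinrank_FresBar_mul_two_ne_zero {M : ℕ} [NeZero M] [NeZero (M * 2)] (h : ExactDvd q M)
    (hA : A.LiesOverPrime q) (hq2 : q ≠ 2) :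
    relfinrank (FresBar M A) (FresBar (M * 2) A) ≠ 0 := by
  obtain ⟨N', hN'0, hM, -⟩ := exists_good h
  haveI : NeZero N' := ⟨hN'0⟩
  haveI : NeZero (N' * 2) := ⟨mul_ne_zero hN'0 two_ne_zero⟩
  have h2 := relfinrank_FresBar_of_exactDvd A (exactDvd_mul_two h hq2) hA (N' * 2)
    (by rw [hM]; ring)
  have hle1 : 𝕜⟮jqModC 𝕜⟯ ≤ FresBar M A := by
    rw [adjoin_simple_le_iff]
    exact Fermat.Agent.GK.Val.Degrees.jqModC_mem_FresBar M A
  have hmul := relfinrank_mul_relfinrank hle1 (FresBar_le_mul_two A h hA hq2)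
  rw [h2] at hmul
  have hψ : 0 < dedekindPsi (N' * 2) := by
    rw [← Fermat.Agent.S24_helper62.finrank_FN (N' * 2)]
    have := Fermat.Agent.GJ.J1.Val.finiteDimensional_jF (N' * 2)
    exact Module.finrank_pos
  intro h0
  rw [h0, mul_zero] at hmul
  omega

/-- **(P3), degree, `Module.finrank` form** for the inclusion algebra -/
theorem finrank_FresBar_mul_two_le {M : ℕ} [NeZero M] [NeZero (M * 2)] (h : ExactDvd q M)
    (hA : A.LiesOverPrime q) (hq2 : q ≠ 2) (hle : FresBar M A ≤ FresBar (M * 2) A) :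
    @Module.finrank (FresBar M A) (FresBar (M * 2) A) _ _
      (inclusion hle).toRingHom.toAlgebra.toModule ≤ 3 := by
  rw [finrank_inclusion_eq_relfinrank]
  exact relfinrank_FresBar_mul_two_le A h hA hq2

/-- **(P3), finiteness** for the inclusion algebra -/
theorem finiteDimensional_FresBar_mul_two {M : ℕ} [NeZero M] [NeZero (M * 2)] (h : ExactDvd q M)
    (hA : A.LiesOverPrime q) (hq2 : q ≠ 2) (hle : FresBar M A ≤ FresBar (M * 2) A) :
    @FiniteDimensional (FresBar M A) (FresBar (M * 2) A) _ _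
      (inclusion hle).toRingHom.toAlgebra.toModule :=
  finiteDimensional_inclusion _ _ hle (relfinrank_FresBar_mul_two_ne_zero A h hA hq2)

end Degree

/-! ### separability -/

section Separable

variable (A : ValuationSubring Kbar')

local notation "𝕜" => ResidueField A

variable {q : ℕ}

/-- `FresBar N A / k(j~)` is separable (every level `N`, `A` over a prime `q`), for the inclusion
algebra inside `k((Q))` -/
theorem isSeparable_FresBar_over_j (N : ℕ) [NeZero N] (hq : q.Prime) (hA : A.LiesOverPrime q)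
    (hle : 𝕜⟮jqModC 𝕜⟯ ≤ FresBar N A) :
    @Algebra.IsSeparable (𝕜⟮jqModC 𝕜⟯ : IntermediateField 𝕜 (LaurentSeries 𝕜)) (FresBar N A) _ _
      (inclusion hle).toRingHom.toAlgebra := by
  haveI : Fact q.Prime := ⟨hq⟩
  haveI : CharP 𝕜 q := charP_residue A hq hA
  set z : FresBar N A := (redDataBar N A).red ⟨jF N, jF_mem_Rw N A⟩ with hz
  have hzc : ((z : FresBar N A) : LaurentSeries 𝕜) = jqModC 𝕜 := coe_red_jF N A
  haveI : FiniteDimensional 𝕜⟮z⟯ (FresBar N A) :=
    (Fermat.Agent.GK.Val.Degrees.finiteDimensional_f1 N A (jF_mem_Rw N A)).1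
  have hsep : Algebra.IsSeparable 𝕜⟮z⟯ (FresBar N A) :=
    Fermat.Agent.GJ.J1.G1.isSeparable_adjoin_of_embedding q (FresBar N A).val z
      (hord_jF N A hq _)
  have hle' : 𝕜⟮((z : FresBar N A) : LaurentSeries 𝕜)⟯ ≤ FresBar N A := by rw [hzc]; exact hle
  have key := isSeparable_inclusion_adjoin (FresBar N A) z hsep hle'
  revert key hle'
  rw [hzc]
  intro hle' key
  exact key

/-- **`FresBar L A / FresBar M A` is separable** whenever `FresBar M A ≤ FresBar L A` -/
theorem isSeparable_FresBar_of_le (M L : ℕ) [NeZero M] [NeZero L] (hq : q.Prime)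
    (hA : A.LiesOverPrime q) (hle : FresBar M A ≤ FresBar L A) :
    @Algebra.IsSeparable (FresBar M A) (FresBar L A) _ _ (inclusion hle).toRingHom.toAlgebra := by
  have hle1 : 𝕜⟮jqModC 𝕜⟯ ≤ FresBar M A := by
    rw [adjoin_simple_le_iff]
    exact Fermat.Agent.GK.Val.Degrees.jqModC_mem_FresBar M A
  exact isSeparable_inclusion_top _ _ _ hle1 hle
    (isSeparable_FresBar_over_j A L hq hA (hle1.trans hle))

/-- **(P3), separability**: `FresBar (M·2) A / FresBar M A` is separable -/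
theorem isSeparable_FresBar_mul_two {M : ℕ} [NeZero M] [NeZero (M * 2)] (h : ExactDvd q M)
    (hA : A.LiesOverPrime q) (hle : FresBar M A ≤ FresBar (M * 2) A) :
    @Algebra.IsSeparable (FresBar M A) (FresBar (M * 2) A) _ _
      (inclusion hle).toRingHom.toAlgebra :=
  isSeparable_FresBar_of_le A M (M * 2) h.prime hA hle

end Separable

end Fermat.Agent.GB.A.Desc.ResDeg
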