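/-
GATE-B (S38/S43) / CASE A, node GB-A-DESC-LEVEL (helper28): **compatibility of the two Gauss
valuations of `F_M = ℚ̄(X₀(M))` with a change of level `M ∣ M·a`**, and the resulting
**descent of `FP.NodeHyp`** (node A4) from level `M·a` to level `M`.

* generic (`F ≤ F'` two fields of Laurent series with the Gauss-fraction property):
  `mem_Rw_inclusion_iff`, `redL_inclusion`, `Fres_le`;
* modular: `alphaB M a : F_M → F_{M a}` is compatible with `Rw₁`, `red₁`, with the Atkin–Lehner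
  automorphism at `q ∥ M` (`wAut_alphaB`), hence with `Rw₂`, `red₂`, with the Galois action on
  units and with `pDivUnits`;
* `nodeHyp_descent` : `NodeHyp` at level `M·a` + (P1) "`m ∣ ord_w (u)` for all places `w` of the
  bigger residue field ⟹ `m ∣ ord_v (u)` for all places `v` of the smaller one" (hypothesis form,
  node GB-A-DESC-PLACEEXT) ⟹ `NodeHyp` at level `M`.
-/
import Fermat.Agent.GB.A.FP
import Fermat.Agent.GK.UTr.KumAlphaGal

set_option autoImplicit false

noncomputable section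

namespace Fermat.Agent.GB.A.Desc

open ModularCurve IsLocalRing AlgebraicCurve HahnSeries
open Fermat.Agent.S24 Fermat.Agent.S24_helper62 Fermat.Agent.GJ.J1 Fermat.Agent.GJ.J1.Val
open Fermat.Agent.GJ.KumGroup Fermat.Agent.GJ.Kum.KumType Fermat.Agent.GJ.HN
open Fermat.Agent.GK.UqKronecker Fermat.Agent.GK.AL Fermat.Agent.GK.SS Fermat.Agent.GK.UTr
open Fermat.Agent.GB.A.FP

local notation "GQ" => (AlgebraicClosure ℚ ≃ₐ[ℚ] AlgebraicClosure ℚ)

/-! ### generic: two fields of Laurent series -/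

section Generic

variable {L : Type*} [Field L] {A : ValuationSubring L}
  {F F' : IntermediateField L (LaurentSeries L)} (hGF : HasGaussFrac A F)
  (hGF' : HasGaussFrac A F') (hle : F ≤ F')

theorem coe_inclusion' (x : F) :
    ((IntermediateField.inclusion hle x : F') : LaurentSeries L) = (x : LaurentSeries L) := rfl

/-- the Gauss valuation ring of `F'` restricts to the Gauss valuation ring of `F` -/
theorem mem_Rw_inclusion_iff (x : F) :
    IntermediateField.inclusion hle x ∈ Rw A F' hGF' ↔ x ∈ Rw A F hGF := by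
  constructor
  · rintro ⟨a, b, -, -, hb, hx⟩
    exact mem_Rw_of_frac (hGF := hGF) hb hx
  · rintro ⟨a, b, ha, hb, hb0, hx⟩
    exact ⟨a, b, hle ha, hle hb, hb0, hx⟩

/-- the reduction maps agree (as Laurent series over the residue field) -/
theorem redL_inclusion (x : F) (hx : x ∈ Rw A F hGF)
    (hx' : IntermediateField.inclusion hle x ∈ Rw A F' hGF') :
    redL A F' hGF' ⟨IntermediateField.inclusion hle x, hx'⟩ = redL A F hGF ⟨x, hx⟩ := by
  obtain ⟨a, b, ha, hb, hb0, hab⟩ := hx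
  have h1 : IsFrac A F (((⟨x, ⟨a, b, ha, hb, hb0, hab⟩⟩ : Rw A F hGF) : F) : LaurentSeries L) a b :=
    ⟨ha, hb, hb0, hab⟩
  have h2 : IsFrac A F' (((⟨IntermediateField.inclusion hle x, hx'⟩ : Rw A F' hGF') : F') :
      LaurentSeries L) a b := ⟨hle ha, hle hb, hb0, hab⟩
  rw [redL_eq h1, redL_eq h2]

include hle in
/-- the residue fields are nested -/
theorem Fres_le : Fres A F hGF ≤ Fres A F' hGF' := by
  intro y hy
  obtain ⟨x, rfl⟩ := (mem_Fres_iff (hGF := hGF)).1 hy
  exact (mem_Fres_iff (hGF := hGF')).2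
    ⟨⟨IntermediateField.inclusion hle x, (mem_Rw_inclusion_iff hGF hGF' hle x).2 x.2⟩,
      redL_inclusion hGF hGF' hle x x.2 _⟩

end Generic

/-! ### modular: the levels `M ∣ M·a` -/

section Modular

variable (M a : ℕ) [NeZero M] [NeZero a] (A : ValuationSubring Kb)

local notation "𝕜" => ResidueField A

/-- `F_M ≤ F_{M a}` inside `ℚ̄((q))` -/
theorem le_level : modularFunctionFieldBar M ≤ modularFunctionFieldBar (M * a) := by
  intro x hx
  have h := (alphaB M a ⟨x, hx⟩).2
  rwa [coe_heckeAlphaBar] at h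

theorem alphaB_eq_inclusion :
    (alphaB M a : FK M →ₐ[Kb] FK (M * a)) = IntermediateField.inclusion (le_level M a) := rfl

/-- `Rw₁` of level `M a` restricts to `Rw₁` of level `M` -/
theorem alphaB_mem_Rw1_iff (x : FK M) :
    alphaB M a x ∈ (redDataBar (M * a) A).Rw ↔ x ∈ (redDataBar M A).Rw :=
  mem_Rw_inclusion_iff (hasGaussFrac_bar M A) (hasGaussFrac_bar (M * a) A) (le_level M a) x

/-- `red₁` is compatible with the change of level (as Laurent series over the residue field) -/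
theorem coe_red1_alphaB (x : FK M) (hx : x ∈ (redDataBar M A).Rw)
    (hx' : alphaB M a x ∈ (redDataBar (M * a) A).Rw) :
    (((redDataBar (M * a) A).red ⟨alphaB M a x, hx'⟩ : FresBar (M * a) A) : LaurentSeries 𝕜) =
      (((redDataBar M A).red ⟨x, hx⟩ : FresBar M A) : LaurentSeries 𝕜) :=
  redL_inclusion (hasGaussFrac_bar M A) (hasGaussFrac_bar (M * a) A) (le_level M a) x hx hx'

/-- the residue fields of the two levels are nested -/
theorem FresBar_le_level : FresBar M A ≤ FresBar (M * a) A :=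
  Fres_le (hasGaussFrac_bar M A) (hasGaussFrac_bar (M * a) A) (le_level M a)

/-! #### the Atkin–Lehner automorphism -/

theorem jFam_congr {M' : ℕ} [NeZero M'] (d : DivIdx M) (d' : DivIdx M') (hdd : d.1 = d'.1) :
    Fermat.Agent.S24_helper62.jFam Kb M d = Fermat.Agent.S24_helper62.jFam Kb M' d' := by
  obtain ⟨d, hd⟩ := d
  obtain ⟨d', hd'⟩ := d'
  simp only at hdd
  subst hdd
  rfl

/-- a divisor of `M` as a divisor of `M a` -/
def liftIdx (d : DivIdx M) : DivIdx (M * a) := ⟨d.1, d.2.mul_right a⟩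

theorem alphaB_gen (d : DivIdx M) : alphaB M a (gen M d) = gen (M * a) (liftIdx M a d) :=
  Subtype.ext rfl

variable {M a} {q : ℕ} (h : ExactDvd q M) (h' : ExactDvd q (M * a))

omit [NeZero M] [NeZero a] in
theorem swapIdx_liftIdx (d : DivIdx M) :
    (swapIdx h' (liftIdx M a d)).1 = (swapIdx h d).1 := by
  by_cases hqd : q ∣ d.1
  · rw [swapIdx_apply, swapIdx_apply, swapFun_of_dvd h hqd,
      swapFun_of_dvd h' (d := liftIdx M a d) hqd]
    rfl
  · rw [swapIdx_apply, swapIdx_apply, swapFun_of_not_dvd h hqd,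
      swapFun_of_not_dvd h' (d := liftIdx M a d) hqd]
    rfl

/-- **`W_q` commutes with the change of level** `M ∣ M a` (`q ∥ M`, `q ∥ M a`) -/
theorem wAut_alphaB (x : FK M) : wAut h' (alphaB M a x) = alphaB M a (wAut h x) := by
  have key : ((wAut h' : FK (M * a) ≃ₐ[Kb] FK (M * a)) : FK (M * a) →ₐ[Kb] FK (M * a)).comp
      (alphaB M a) = (alphaB M a).comp ((wAut h : FK M ≃ₐ[Kb] FK M) : FK M →ₐ[Kb] FK M) := by
    apply algHom_ext_gen
    intro d
    show wAut h' (alphaB M a (gen M d)) = alphaB M a (wAut h (gen M d))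
    rw [alphaB_gen, wAut_gen, wAut_gen, alphaB_gen]
    apply Subtype.ext
    show Fermat.Agent.S24_helper62.jFam Kb (M * a) _ = Fermat.Agent.S24_helper62.jFam Kb (M * a) _
    exact jFam_congr (M * a) _ _ (swapIdx_liftIdx h h' d)
  exact DFunLike.congr_fun key x

/-- `Rw₂` of level `M a` restricts to `Rw₂` of level `M` -/
theorem alphaB_mem_Rw2_iff (x : FK M) :
    alphaB M a x ∈ (redData2 (M * a) A h').Rw ↔ x ∈ (redData2 M A h).Rw := by
  rw [mem_Rw2_iff, mem_Rw2_iff, wAut_alphaB h h', alphaB_mem_Rw1_iff]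

/-- `red₂` is compatible with the change of level -/
theorem coe_red2_alphaB (x : FK M) (hx : x ∈ (redData2 M A h).Rw)
    (hx' : alphaB M a x ∈ (redData2 (M * a) A h').Rw) :
    (((redData2 (M * a) A h').red ⟨alphaB M a x, hx'⟩ : FresBar (M * a) A) : LaurentSeries 𝕜) =
      (((redData2 M A h).red ⟨x, hx⟩ : FresBar M A) : LaurentSeries 𝕜) := by
  rw [red2_eq, red2_eq]
  have e : (⟨wAut h' (alphaB M a x), hx'⟩ : (redDataBar (M * a) A).Rw) =
      ⟨alphaB M a (wAut h x), (alphaB_mem_Rw1_iff M a A _).2 hx⟩ :=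
    Subtype.ext (wAut_alphaB h h' x)
  rw [e]
  exact coe_red1_alphaB M a A (wAut h x) hx _

/-! #### descent of `NodeHyp` -/

variable (M a) in
/-- **(P1) + (P3), hypothesis form**: `m`-divisibility of all orders of an element of the residue
function field `FresBar M A` may be tested in the bigger field `FresBar (M a) A`. -/
def PlaceDesc (m : ℕ) : Prop :=
  ∀ (x : FresBar M A) (x' : FresBar (M * a) A),
    (x' : LaurentSeries 𝕜) = (x : LaurentSeries 𝕜) →
    (∀ Q' : Place 𝕜 (FresBar (M * a) A), (m : ℤ) ∣ Q'.ord x') →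
      ∀ Q : Place 𝕜 (FresBar M A), (m : ℤ) ∣ Q.ord x

variable {A}

theorem bothUnit_alphaUnits {u : (FK M)ˣ} (hu : BothUnit h A u) :
    BothUnit h' A (alphaUnits M a u) := by
  have e1 : ((alphaUnits M a u : (FK (M * a))ˣ) : FK (M * a)) = alphaB M a (u : FK M) := rfl
  have e2 : (((alphaUnits M a u)⁻¹ : (FK (M * a))ˣ) : FK (M * a)) =
      alphaB M a ((u⁻¹ : (FK M)ˣ) : FK M) := by
    rw [← map_inv]; rfl
  refine ⟨⟨?_, ?_⟩, ⟨?_, ?_⟩⟩
  · rw [e1]; exact (alphaB_mem_Rw1_iff M a A _).2 hu.1.1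
  · rw [e2]; exact (alphaB_mem_Rw1_iff M a A _).2 hu.1.2
  · rw [e1]; exact (alphaB_mem_Rw2_iff A h h' _).2 hu.2.1
  · rw [e2]; exact (alphaB_mem_Rw2_iff A h h' _).2 hu.2.2

theorem coe_redUnit₁_alphaUnits {u : (FK M)ˣ} (hu : BothUnit h A u)
    (hu' : BothUnit h' A (alphaUnits M a u)) :
    (((redUnit₁ hu' : (FresBar (M * a) A)ˣ) : FresBar (M * a) A) : LaurentSeries 𝕜) =
      (((redUnit₁ hu : (FresBar M A)ˣ) : FresBar M A) : LaurentSeries 𝕜) :=
  coe_red1_alphaB M a A (u : FK M) hu.1.1 hu'.1.1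

theorem coe_redUnit₂_alphaUnits {u : (FK M)ˣ} (hu : BothUnit h A u)
    (hu' : BothUnit h' A (alphaUnits M a u)) :
    (((redUnit₂ hu' : (FresBar (M * a) A)ˣ) : FresBar (M * a) A) : LaurentSeries 𝕜) =
      (((redUnit₂ hu : (FresBar M A)ˣ) : FresBar M A) : LaurentSeries 𝕜) :=
  coe_red2_alphaB A h h' (u : FK M) hu.2.1 hu'.2.1

/-- **descent of (A4)** from level `M a` to level `M`. -/
theorem nodeHyp_descent {m : ℕ} (hPD : PlaceDesc M a A m) (hN : NodeHyp h' A m) :
    NodeHyp h A m := by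
  intro u hfix hu
  have hu' : BothUnit h' A (alphaUnits M a (u : (FK M)ˣ)) := bothUnit_alphaUnits h h' hu
  have hfix' : ∀ σ ∈ A.inertiaSubgroupIn ℚ,
      galUnits (M * a) σ (alphaUnits M a (u : (FK M)ˣ)) = alphaUnits M a (u : (FK M)ˣ) := by
    intro σ hσ
    rw [← alphaUnits_galUnits, hfix σ hσ]
  obtain ⟨h1, h2⟩ := hN ⟨alphaUnits M a (u : (FK M)ˣ), alphaUnits_mem M a m u u.2⟩ hfix' hu'
  refine ⟨fun Q => ?_, fun Q => ?_⟩
  · exact hPD _ _ (coe_redUnit₁_alphaUnits h h' hu hu') (fun Q' => h1 Q') Q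
  · exact hPD _ _ (coe_redUnit₂_alphaUnits h h' hu hu') (fun Q' => h2 Q') Q

end Modular

end Fermat.Agent.GB.A.Desc
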