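/-
GATE-B / CASE A / GB-A-DESC-PLACEEXT (helper48): leaf (P1) of helper28's descent of `NodeHyp`
between levels (board 5446).

For a finite extension `F'/F` of function fields over `K` (prelude `Place` API):
* `exists_place_restrict_eq`      : (separable case) every place of `F` has a place of `F'` above it;
* `ramificationIndex_le_finrank`  : `e(w | v) ≤ [F' : F]` (`1, t, …, t^(e-1)` are `F`-independent);
* `dvd_ord_of_forall_dvd_above`   : if every `0 < e ≤ [F' : F]` is prime to `m` and `m ∣ ord_w u`
  for all places `w` of `F'`, then `m ∣ ord_v u` for all places `v` of `F`.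
No norm formula, no fundamental identity.
-/
import Mathlib
import Fermat.Prelude.Def_AlgebraicCurve_DivisorPushPull
import Fermat.Agent.S24_helper6.PlaceDict
import Fermat.Agent.S24.PlaceBasic

set_option autoImplicit false

noncomputable section

namespace Fermat.Agent.GB.A.Desc.PlaceExt

open AlgebraicCurve IsDedekindDomain WithZero
open Fermat.Agent.S24 Fermat.Agent.S24_helper6

variable {K F F' : Type*} [Field K] [Field F] [Field F'] [Algebra K F] [Algebra K F']
  [Algebra F F'] [IsScalarTower K F F']

/-! ### comparison of `ord` and the adic valuation -/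

theorem adicValuation_lt_of_ord_lt (w : Place K F') {x y : F'} (hx : x ≠ 0) (hy : y ≠ 0)
    (h : w.ord x < w.ord y) : w.adicValuation y < w.adicValuation x := by
  have hx' := w.adicValuation_ne_zero hx
  have hy' := w.adicValuation_ne_zero hy
  rw [Place.ord, Place.ord, neg_lt_neg_iff] at h
  exact (log_lt_log hy' hx').mp h

/-- a finite sum with a strictly dominant term is nonzero -/
theorem sum_ne_zero_of_ord_lt (w : Place K F') {ι : Type*} [DecidableEq ι] (s : Finset ι)
    (x : ι → F') (i₀ : ι) (hi₀ : i₀ ∈ s) (hx₀ : x i₀ ≠ 0)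
    (hlt : ∀ i ∈ s, i ≠ i₀ → x i ≠ 0 → w.ord (x i₀) < w.ord (x i)) :
    ∑ i ∈ s, x i ≠ 0 := by
  intro hsum
  have hV0 : w.adicValuation (x i₀) ≠ 0 := w.adicValuation_ne_zero hx₀
  have hrest : w.adicValuation (∑ i ∈ s.erase i₀, x i) < w.adicValuation (x i₀) := by
    refine Valuation.map_sum_lt _ hV0 fun i hi => ?_
    rw [Finset.mem_erase] at hi
    by_cases hxi : x i = 0
    · rw [hxi, map_zero]
      exact zero_lt_iff.mpr hV0
    · exact adicValuation_lt_of_ord_lt w hx₀ hxi (hlt i hi.2 hi.1 hxi)
  have hsplit : ∑ i ∈ s, x i = x i₀ + ∑ i ∈ s.erase i₀, x i :=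
    (Finset.add_sum_erase s x hi₀).symm
  have hval : w.adicValuation (x i₀ + ∑ i ∈ s.erase i₀, x i) = w.adicValuation (x i₀) :=
    Valuation.map_add_eq_of_lt_left _ hrest
  rw [← hsplit, hsum, map_zero] at hval
  exact hV0 hval.symm

/-! ### `e(w | v) ≤ [F' : F]` -/

section Ram

variable [FiniteDimensional F F']

/-- `1, t, …, t^(e-1)` are linearly independent over `F` when `ord_w t = 1`,
`e = e(w | F)`. -/
theorem linearIndependent_pow_of_ord_eq_one (w : Place K F') {t : F'} (ht : w.ord t = 1) :
    LinearIndependent F (fun i : Fin (w.ramificationIndex F) => t ^ (i : ℕ)) := by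
  classical
  set e := w.ramificationIndex F with he
  have ht0 : t ≠ 0 := by
    rintro rfl
    simp at ht
  rw [Fintype.linearIndependent_iff]
  intro g hg
  by_contra hne
  rw [not_forall] at hne
  obtain ⟨j, hj⟩ := hne
  -- the terms
  set x : Fin e → F' := fun i => g i • t ^ (i : ℕ) with hx
  have hxne : ∀ i, g i ≠ 0 → x i ≠ 0 := by
    intro i hi
    rw [hx]
    simp only [Algebra.smul_def]
    exact mul_ne_zero ((map_ne_zero_iff _ (algebraMap F F').injective).mpr hi)
      (pow_ne_zero _ ht0)
  have hxord : ∀ i, g i ≠ 0 → w.ord (x i) = (e : ℤ) * (w.restrict F).ord (g i) + (i : ℕ) := by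
    intro i hi
    rw [hx]
    simp only [Algebra.smul_def]
    rw [w.ord_mul ((map_ne_zero_iff _ (algebraMap F F').injective).mpr hi) (pow_ne_zero _ ht0),
      w.ord_restrict, ← zpow_natCast, w.ord_zpow, ht, mul_one]
  -- the support and its minimal term
  set s : Finset (Fin e) := Finset.univ.filter fun i => g i ≠ 0 with hs
  have hsne : s.Nonempty := ⟨j, by rw [hs, Finset.mem_filter]; exact ⟨Finset.mem_univ _, hj⟩⟩
  obtain ⟨i₀, hi₀s, hmin⟩ := Finset.exists_min_image s (fun i => w.ord (x i)) hsne
  have hgi₀ : g i₀ ≠ 0 := (Finset.mem_filter.mp hi₀s).2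
  have hsum : ∑ i ∈ s, x i = 0 := by
    rw [← hg, hs, Finset.sum_filter]
    refine Finset.sum_congr rfl fun i _ => ?_
    by_cases hi : g i = 0
    · simp [hi, hx]
    · simp [hi]
  refine sum_ne_zero_of_ord_lt w s x i₀ hi₀s (hxne i₀ hgi₀) ?_ hsum
  intro i his hii₀ _
  have hgi : g i ≠ 0 := (Finset.mem_filter.mp his).2
  have hle := hmin i his
  refine lt_of_le_of_ne hle ?_
  intro heq
  rw [hxord i₀ hgi₀, hxord i hgi] at heq
  apply hii₀
  apply Fin.ext
  have h1 : (i₀ : ℕ) < e := i₀.2
  have h2 : (i : ℕ) < e := i.2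
  have h3 : ((i : ℕ) : ℤ) - ((i₀ : ℕ) : ℤ)
      = (e : ℤ) * ((w.restrict F).ord (g i₀) - (w.restrict F).ord (g i)) := by
    rw [mul_sub]; linarith
  have h4 : (e : ℤ) ∣ ((i : ℕ) : ℤ) - ((i₀ : ℕ) : ℤ) := ⟨_, h3⟩
  have h5 : ((i : ℕ) : ℤ) - ((i₀ : ℕ) : ℤ) = 0 := by
    apply Int.eq_zero_of_abs_lt_dvd h4
    rw [abs_lt]
    constructor <;> omega
  omega

/-- **`e(w | v) ≤ [F' : F]`.** -/
theorem ramificationIndex_le_finrank (w : Place K F') :
    w.ramificationIndex F ≤ Module.finrank F F' := by
  obtain ⟨π, hπ⟩ := IsDiscreteValuationRing.exists_irreducible w.toValuationSubring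
  have ht : w.ord (π : F') = 1 := w.ord_coe_irreducible hπ
  have h := (linearIndependent_pow_of_ord_eq_one (F := F) w ht).fintype_card_le_finrank
  simpa using h

end Ram

/-! ### existence of a place above a given place (separable case) -/

section Exists

variable [FiniteDimensional F F'] [Algebra.IsSeparable F F']

/-- **Every place of `F` has a place of `F'` above it** (`F'/F` finite separable). -/
theorem exists_place_restrict_eq (v : Place K F) : ∃ w : Place K F', w.restrict F = v := by
  classical
  let algOv : Algebra v.toValuationSubring F' :=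
    ((algebraMap F F').comp (algebraMap v.toValuationSubring F)).toAlgebra
  have : IsScalarTower v.toValuationSubring F F' :=
    IsScalarTower.of_algebraMap_eq fun _ => rfl
  let B : Subalgebra v.toValuationSubring F' := integralClosure v.toValuationSubring F'
  have : IsDedekindDomain B := integralClosure.isDedekindDomain v.toValuationSubring F F'
  have : IsFractionRing B F' := integralClosure.isFractionRing_of_finite_extension F F'
  have hinj : Function.Injective (algebraMap v.toValuationSubring B) := by
    intro a b hab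
    have h := congrArg (algebraMap B F') hab
    have h2 : algebraMap F F' (a : F) = algebraMap F F' (b : F) := h
    exact Subtype.ext ((algebraMap F F').injective h2)
  let algKB : Algebra K B :=
    ((algebraMap v.toValuationSubring B).comp (algebraMap K v.toValuationSubring)).toAlgebra
  have : IsScalarTower K B F' :=
    IsScalarTower.of_algebraMap_eq fun a => by
      show algebraMap K F' a = algebraMap F F' (algebraMap K F a)
      rw [← IsScalarTower.algebraMap_apply]
  -- a maximal ideal of `B` over the maximal ideal of `O_v`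
  have : Algebra.IsIntegral v.toValuationSubring B := inferInstance
  have hker : RingHom.ker (algebraMap v.toValuationSubring B) ≤
      IsLocalRing.maximalIdeal v.toValuationSubring := by
    rw [(RingHom.injective_iff_ker_eq_bot _).mp hinj]
    exact bot_le
  obtain ⟨Q, hQmax, hQ⟩ := Ideal.exists_ideal_over_maximal_of_isIntegral
    (IsLocalRing.maximalIdeal v.toValuationSubring) hker
  have hQ0 : Q ≠ ⊥ := by
    rintro rfl
    have h1 : IsLocalRing.maximalIdeal v.toValuationSubring = ⊥ := by
      rw [← hQ]
      exact (RingHom.injective_iff_ker_eq_bot _).mp hinj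
    exact IsDiscreteValuationRing.not_a_field v.toValuationSubring h1
  let P : HeightOneSpectrum B := ⟨Q, hQmax.isPrime, hQ0⟩
  refine ⟨placeOfPrime (K := K) (F := F') P, ?_⟩
  symm
  apply PlaceB.eq_of_le
  intro a ha
  show algebraMap F F' a ∈ (placeOfPrime (K := K) (F := F') P).toValuationSubring
  exact containsB_placeOfPrime (K := K) (F := F') P
    (algebraMap v.toValuationSubring B ⟨a, ha⟩)

/-- **Descent of divisibility of orders**: if every `0 < e ≤ [F' : F]` is prime to `m` and
`m ∣ ord_w u` at every place `w` of `F'`, then `m ∣ ord_v u` at every place `v` of `F`. -/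
theorem dvd_ord_of_forall_dvd_above (m : ℕ)
    (hm : ∀ e : ℕ, 0 < e → e ≤ Module.finrank F F' → Nat.Coprime e m) (u : F)
    (hu : ∀ w : Place K F', (m : ℤ) ∣ w.ord (algebraMap F F' u)) (v : Place K F) :
    (m : ℤ) ∣ v.ord u := by
  obtain ⟨w, hw⟩ := exists_place_restrict_eq (F' := F') v
  have h1 := hu w
  rw [w.ord_restrict, hw] at h1
  have hcop : Nat.Coprime (w.ramificationIndex F) m :=
    hm _ (w.ramificationIndex_pos (F := F)) (ramificationIndex_le_finrank w)
  have hcop' : IsCoprime (m : ℤ) ((w.ramificationIndex F : ℕ) : ℤ) :=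
    (Nat.isCoprime_iff_coprime.mpr hcop).symm
  exact hcop'.dvd_of_dvd_mul_left h1

end Exists

end Fermat.Agent.GB.A.Desc.PlaceExt
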