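/-
GATE-B (S38/S43) / CASE A, node GB-A-DESC-ASSEMBLY (helper28): **`FP.NodeHyp` at every level from
`FP.NodeHyp` at the auxiliary levels `(N'·4)·q`**.

* `placeDesc_of_finrank_le` : the hypothesis `PlaceDesc M a A m` of `nodeHyp_descent` from
  (P1) `PlaceExt.dvd_ord_of_forall_dvd_above` when the residue extension
  `FresBar M A ⊆ FresBar (M a) A` is finite separable of degree `≤ d` and every `0 < e ≤ d` is
  prime to `m`;
* arithmetic: `coprime_of_le_three`, `exactDvd_mul_two`;
* `nodeHyp_of_aux` : the two-step descent `M·2·2 → M·2 → M`.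
-/
import Fermat.Agent.GB.A.Desc.Level
import Fermat.Agent.GB.A.Desc.PlaceExt
import Fermat.Agent.GB.A.A4.LevelFour

set_option autoImplicit false

noncomputable section

namespace Fermat.Agent.GB.A.Desc

open ModularCurve IsLocalRing AlgebraicCurve HahnSeries
open Fermat.Agent.S24 Fermat.Agent.GJ.J1 Fermat.Agent.GJ.J1.Val
open Fermat.Agent.GJ.KumGroup Fermat.Agent.GJ.Kum.KumType
open Fermat.Agent.GK.UqKronecker Fermat.Agent.GK.AL Fermat.Agent.GK.SS
open Fermat.Agent.GB.A.FP

/-! ### generic: place-divisibility descends along `F ≤ F'` -/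

section Gen

open IntermediateField

variable {k E : Type*} [Field k] [Field E] [Algebra k E] {F F' : IntermediateField k E}
  (hle : F ≤ F')

/-- the inclusion `F ≤ F'` as an algebra structure (NOT an instance) -/
@[reducible] def inclAlgebra : Algebra F F' := (IntermediateField.inclusion hle).toRingHom.toAlgebra

theorem inclAlgebra_isScalarTower :
    letI := inclAlgebra hle
    IsScalarTower k F F' := by
  let _ := inclAlgebra hle
  exact IsScalarTower.of_algebraMap_eq fun _ => rfl

/-- `F'` with the inclusion algebra structure is `extendScalars hle` -/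
def inclEquiv :
    letI := inclAlgebra hle
    F' ≃ₐ[F] (extendScalars hle) := by
  letI := inclAlgebra hle
  exact
    { toFun := fun y => ⟨y.1, y.2⟩
      invFun := fun y => ⟨y.1, y.2⟩
      left_inv := fun _ => rfl
      right_inv := fun _ => rfl
      map_mul' := fun _ _ => rfl
      map_add' := fun _ _ => rfl
      commutes' := fun _ => rfl }

/-- **(P1), `IntermediateField` form**: `F ≤ F'` finite separable, every
`0 < e ≤ [F' : F]` prime to `m`; then `m`-divisibility of all orders of `x ∈ F` may be tested at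
the places of `F'`. -/
theorem dvd_ord_of_le [FiniteDimensional F (extendScalars hle)]
    [Algebra.IsSeparable F (extendScalars hle)] (m : ℕ)
    (hm : ∀ e : ℕ, 0 < e → e ≤ Module.finrank F (extendScalars hle) → Nat.Coprime e m)
    (x : F) (x' : F') (hxx' : (x' : E) = (x : E))
    (hx' : ∀ w : Place k F', (m : ℤ) ∣ w.ord x') (v : Place k F) : (m : ℤ) ∣ v.ord x := by
  letI := inclAlgebra hle
  have := inclAlgebra_isScalarTower hle
  have hfin : FiniteDimensional F F' := (inclEquiv hle).symm.toLinearEquiv.finiteDimensional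
  have hsep : Algebra.IsSeparable F F' := AlgEquiv.Algebra.isSeparable (inclEquiv hle).symm
  have hrk : Module.finrank F F' = Module.finrank F (extendScalars hle) :=
    (inclEquiv hle).toLinearEquiv.finrank_eq
  have e : x' = algebraMap F F' x := Subtype.ext hxx'
  subst e
  exact PlaceExt.dvd_ord_of_forall_dvd_above (K := k) m (by rw [hrk]; exact hm) x hx' v

/-- the same with the degree bound in `relfinrank` form (`0 < relfinrank F F' ≤ d`) -/
theorem dvd_ord_of_relfinrank_le [Algebra.IsSeparable F (extendScalars hle)] (m d : ℕ)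
    (hpos : 0 < relfinrank F F') (hd : relfinrank F F' ≤ d)
    (hm : ∀ e : ℕ, 0 < e → e ≤ d → Nat.Coprime e m)
    (x : F) (x' : F') (hxx' : (x' : E) = (x : E))
    (hx' : ∀ w : Place k F', (m : ℤ) ∣ w.ord x') (v : Place k F) : (m : ℤ) ∣ v.ord x := by
  rw [relfinrank_eq_finrank_of_le hle] at hpos hd
  have : FiniteDimensional F (extendScalars hle) := Module.finite_of_finrank_pos hpos
  exact dvd_ord_of_le hle m (fun e he hle' => hm e he (hle'.trans hd)) x x' hxx' hx' v

end Gen

/-! ### `PlaceDesc` from the degree and separability of the residue extension (P3) -/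

section Wrapper

open IntermediateField

variable (M a : ℕ) [NeZero M] [NeZero a] (A : ValuationSubring Kb)

local notation "𝕜" => ResidueField A

/-- **(P1) + (P3) ⟹ `PlaceDesc`** -/
theorem placeDesc_of_relfinrank_le (m d : ℕ)
    (hsep : Algebra.IsSeparable (FresBar M A) (extendScalars (FresBar_le_level M a A)))
    (hpos : 0 < relfinrank (FresBar M A) (FresBar (M * a) A))
    (hd : relfinrank (FresBar M A) (FresBar (M * a) A) ≤ d)
    (hm : ∀ e : ℕ, 0 < e → e ≤ d → Nat.Coprime e m) : PlaceDesc M a A m :=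
  fun x x' hxx' hx' Q =>
    dvd_ord_of_relfinrank_le (FresBar_le_level M a A) m d hpos hd hm x x' hxx' hx' Q

end Wrapper

/-! ### arithmetic -/

section Arith

/-- every `0 < e ≤ 3` is prime to an `m` all of whose prime factors are `≥ 5` -/
theorem coprime_of_le_three {m : ℕ} (hm : ∀ r : ℕ, r.Prime → r ∣ m → 5 ≤ r) {e : ℕ} (_he : 0 < e)
    (he3 : e ≤ 3) : Nat.Coprime e m := by
  rw [Nat.coprime_iff_gcd_eq_one]
  by_contra hne
  obtain ⟨r, hr, hrd⟩ := Nat.exists_prime_and_dvd hne
  have h1 : r ∣ e := hrd.trans (Nat.gcd_dvd_left e m)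
  have h2 : r ∣ m := hrd.trans (Nat.gcd_dvd_right e m)
  have h3 : r ≤ e := Nat.le_of_dvd _he h1
  have := hm r hr h2
  omega

/-- `q ∥ M`, `q` odd ⟹ `q ∥ M·2` -/
theorem exactDvd_mul_two {q M : ℕ} (h : ExactDvd q M) (hq : q ≠ 2) : ExactDvd q (M * 2) := by
  refine ⟨h.prime, h.dvd.mul_right 2, fun hsq => h.not_sq ?_⟩
  have hcop : Nat.Coprime (q ^ 2) 2 := by
    apply Nat.Coprime.pow_left
    exact (Nat.coprime_primes h.prime Nat.prime_two).2 hq
  exact hcop.dvd_of_dvd_mul_right hsq

end Arith

/-! ### the two-step descent `M·2·2 → M·2 → M` -/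

section Final

variable {M q : ℕ} [NeZero M]

/-- `NodeHyp` only depends on the level up to equality -/
theorem nodeHyp_congr {M' : ℕ} [NeZero M'] (e : M = M') (h : ExactDvd q M) (h' : ExactDvd q M')
    (A : ValuationSubring Kb) (m : ℕ) (hN : NodeHyp h' A m) : NodeHyp h A m := by
  subst e
  exact hN

/-- **(A4) at level `M·4`** (`q ∥ M`, `q` odd): helper84's `LevelFour.nodeHyp_of_four_dvd`,
transported to the spelling `M * 2 * 2` of the level. -/
theorem nodeHyp_mul_four (h : ExactDvd q M) (hq2 : q ≠ 2) {A : ValuationSubring Kb}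
    (hA : A.LiesOverPrime q) (m : ℕ) :
    NodeHyp (exactDvd_mul_two (exactDvd_mul_two h hq2) hq2) A m := by
  have hqp : q.Prime := h.prime
  have : Fact q.Prime := ⟨hqp⟩
  have : NeZero q := ⟨hqp.ne_zero⟩
  have hM0 : M ≠ 0 := NeZero.ne M
  have hMq : M / q * q = M := Nat.div_mul_cancel h.dvd
  have hN0 : M / q * 4 ≠ 0 := by
    intro h0
    have : M / q = 0 := by omega
    rw [this, zero_mul] at hMq
    exact hM0 hMq.symm
  have : NeZero (M / q * 4) := ⟨hN0⟩
  have e : M * 2 * 2 = M / q * 4 * q := by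
    calc M * 2 * 2 = M / q * q * 2 * 2 := by rw [hMq]
      _ = M / q * 4 * q := by ring
  have hqN : ¬ q ∣ M / q * 4 := by
    intro hd
    have hcop : Nat.Coprime q 4 := by
      have h22 : (4 : ℕ) = 2 ^ 2 := by norm_num
      rw [h22]
      exact Nat.Coprime.pow_right 2 ((Nat.coprime_primes hqp Nat.prime_two).2 hq2)
    have hd' : q ∣ M / q := hcop.dvd_of_dvd_mul_right hd
    apply h.not_sq
    obtain ⟨c, hc⟩ := hd'
    refine ⟨c, ?_⟩
    calc M = M / q * q := hMq.symm
      _ = q ^ 2 * c := by rw [hc]; ring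
  have h' : ExactDvd q (M / q * 4 * q) := by
    rw [← e]
    exact exactDvd_mul_two (exactDvd_mul_two h hq2) hq2
  exact nodeHyp_congr e _ h' A m
    (Fermat.Agent.GB.A4.LevelFour.nodeHyp_of_four_dvd h' hqN hA (Dvd.intro_left (M / q) rfl)
      hq2 m)

/-- **(A4) at every level, hypothesis form**: `q ∥ M`, `q` odd, `A ∣ q`; if place-divisibility by
`m` descends along the two residue extensions `M ⊆ M·2 ⊆ M·4`, then `NodeHyp h A m`. -/
theorem nodeHyp_of_placeDesc (h : ExactDvd q M) (hq2 : q ≠ 2) {A : ValuationSubring Kb}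
    (hA : A.LiesOverPrime q) (m : ℕ) (hPD1 : PlaceDesc M 2 A m)
    (hPD2 : PlaceDesc (M * 2) 2 A m) : NodeHyp h A m :=
  nodeHyp_descent h (exactDvd_mul_two h hq2) hPD1
    (nodeHyp_descent (exactDvd_mul_two h hq2) (exactDvd_mul_two (exactDvd_mul_two h hq2) hq2) hPD2
      (nodeHyp_mul_four h hq2 hA m))

end Final

end Fermat.Agent.GB.A.Desc
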