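/-
GATE-B (S38/S43) / CASE A, node GB-A5-DESC, leaf N3 (helper28): **torsion lifting at a good level
without the side condition `ℓ = 3 → 2 ∣ N`**, and node A5 (`FP.AbHyp`) without side conditions.

`exists_lift_unit_bar` (helper19 `GB/A/K2Gen/Bar.lean`) needs the good-reduction frame of `X₀(N)`
at `ℓ`, which is on main for `ℓ = 3` only when `2 ∣ N`.  For `N` odd (and `ℓ ≠ 2`) the lift is
obtained from the level `N·2`:

* `ū ∈ FresBar N A ⊆ FresBar (N·2) A` lifts to an `m`-divisible Gauss unit `u₂` of `F_{N·2}`;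
* `v := N_{F_{N·2}/F_N} u₂` is `m`-divisible (`UTr.normUnits_mem`), a Gauss unit, and
  `red v = ū ^ d`, `d = [FresBar (N·2) A : FresBar N A] ≤ 3` (the Gauss valuation is inert:
  `NormRed.norm_red_of_algebraMap`, instantiated by helper81's `NormInst`);
* Bezout `a d + b m = 1`: `u := v ^ a · (W ^ b) ^ m`, `W` any lift of `ū`.
-/
import Fermat.Agent.GB.A.Desc.NodeAll
import Fermat.Agent.GB.A.A5.KerRedUp

set_option autoImplicit false
set_option synthInstance.maxHeartbeats 400000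
set_option maxHeartbeats 1000000

noncomputable section

namespace Fermat.Agent.GB.A.Desc.LiftOdd

open ModularCurve IsLocalRing AlgebraicCurve HahnSeries
open Fermat.Agent.S24 Fermat.Agent.GJ.J1 Fermat.Agent.GJ.J1.Val
open Fermat.Agent.GJ.KumGroup Fermat.Agent.GJ.Kum.KumType Fermat.Agent.GJ.HN
open Fermat.Agent.GJ.HInputs Fermat.Agent.GB.A.Desc

/-! ### generic: from a lift of `ū ^ d` to a lift of `ū` -/

section Generic

variable {K F k Ft : Type*} [Field K] [Field F] [Algebra K F] [Field k] [Field Ft] [Algebra k Ft]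
  (R : RedData K F k Ft)

theorem isUnit_of_red_ne_zero {y : R.Rw} (hy : R.red y ≠ 0) : IsUnit y := by
  by_contra h
  exact hy ((R.red_eq_zero_iff y).2 ((mem_maximalIdeal y).2 (mem_nonunits_iff.2 h)))

/-- **Bezout**: an `m`-divisible lift of `ū ^ d`, `gcd (d, m) = 1`, gives an `m`-divisible lift
of `ū`. -/
theorem exists_lift_of_pow {m d : ℕ} (hd : Nat.Coprime d m) {ut : Ft} (hut : ut ≠ 0)
    (v : R.Rw) (hv : R.red v = ut ^ d) (hvdiv : ∀ P : Place K F, (m : ℤ) ∣ P.ord (v : F)) :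
    ∃ u : R.Rw, R.red u = ut ∧ ∀ P : Place K F, (m : ℤ) ∣ P.ord ((u : R.Rw) : F) := by
  obtain ⟨W, hW⟩ := R.red_surjective ut
  have hvU : IsUnit v := isUnit_of_red_ne_zero R (by rw [hv]; exact pow_ne_zero d hut)
  have hWU : IsUnit W := isUnit_of_red_ne_zero R (by rw [hW]; exact hut)
  obtain ⟨a, b, hab⟩ : ∃ a b : ℤ, a * d + b * m = 1 := (Nat.isCoprime_iff_coprime.2 hd)
  set yv : (R.Rw)ˣ := hvU.unit with hyv
  set yW : (R.Rw)ˣ := hWU.unit with hyW
  set x : (R.Rw)ˣ := yv ^ a * (yW ^ b) ^ m with hx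
  set utU : Ftˣ := Units.mk0 ut hut with hutU
  -- the two homomorphisms
  let ψ : (R.Rw)ˣ →* Ftˣ := Units.map (R.red : R.Rw →* Ft)
  let φ : (R.Rw)ˣ →* Fˣ := Units.map (R.Rw.subtype : R.Rw →* F)
  have hψv : ψ yv = utU ^ d := Units.ext (by
    show R.red v = ((utU ^ d : Ftˣ) : Ft)
    rw [hv, Units.val_pow_eq_pow_val]
    rfl)
  have hψW : ψ yW = utU := Units.ext hW
  have hψx : ψ x = utU := by
    rw [hx, map_mul, map_zpow, map_pow, map_zpow, hψv, hψW, ← zpow_natCast (utU ^ b) m,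
      ← zpow_mul, ← zpow_natCast utU d, ← zpow_mul, ← zpow_add]
    have e : (d : ℤ) * a + b * m = 1 := by rw [← hab]; ring
    rw [e, zpow_one]
  have hφv : φ yv ∈ pDivUnits K F m := fun P => hvdiv P
  have hφx : φ x ∈ pDivUnits K F m := by
    rw [hx, map_mul, map_zpow, map_pow]
    exact mul_mem (zpow_mem hφv a) (pow_mem_pDivUnits K F m _)
  refine ⟨(x : R.Rw), ?_, fun P => hφx P⟩
  have := congrArg (fun z : Ftˣ => (z : Ft)) hψx
  exact this

end Generic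

/-! ### generic: divisibility of orders goes up along `F ≤ F'` -/

section Up

variable {k E : Type*} [Field k] [Field E] [Algebra k E] {F F' : IntermediateField k E}
  (hle : F ≤ F')

theorem dvd_ord_inclusion_of_dvd
    (hfin : @FiniteDimensional F F' _ _ (inclAlgebra hle).toModule) (n : ℤ) (x : F)
    (hx : ∀ Q : Place k F, n ∣ Q.ord x) (Q' : Place k F') :
    n ∣ Q'.ord (IntermediateField.inclusion hle x) := by
  letI := inclAlgebra hle
  have := inclAlgebra_isScalarTower hle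
  have hfd : FiniteDimensional F F' := hfin
  have : Algebra.IsIntegral F F' := Algebra.IsIntegral.of_finite _ _
  exact dvd_ord_algebraMap (K := k) n x hx Q'

end Up

/-! ### the modular instance, in hypothesis form on (N2) -/

section Modular

open Fermat.Agent.GK.UTr

variable (N : ℕ) [NeZero N] (A : ValuationSubring Kb)

local notation "𝕜" => ResidueField A

/-- **(N2), export shape** (helper81 `GB/A/Desc/NormInst.lean`): the norm `F_{N·2} → F_N` of a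
Gauss-integral element whose reduction lies in `FresBar N A` is Gauss-integral and reduces to a
power `ū ^ d`, `0 < d ≤ 3`. -/
def NormRedHyp : Prop :=
  ∀ (u₂ : (redDataBar (N * 2) A).Rw) (ub : FresBar N A),
    (((redDataBar (N * 2) A).red u₂ : FresBar (N * 2) A) : LaurentSeries 𝕜) =
        (ub : LaurentSeries 𝕜) →
    ∃ (d : ℕ) (h : normAlong (alphaB N 2) ((u₂ : (redDataBar (N * 2) A).Rw) : FK (N * 2)) ∈
        (redDataBar N A).Rw),
      0 < d ∧ d ≤ 3 ∧ (redDataBar N A).red ⟨_, h⟩ = ub ^ d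

/-- finiteness of the residue extension, for the inclusion algebra -/
def ResFinHyp : Prop :=
  @FiniteDimensional (FresBar N A) (FresBar (N * 2) A) _ _
    (inclAlgebra (FresBar_le_level N 2 A)).toModule

variable {N A}

/-- **torsion lifting at an ODD good level** from the level `N·2`. -/
theorem exists_lift_unit_bar_of_normRed (hfin : ResFinHyp N A) (hNR : NormRedHyp N A) {ℓ : ℕ}
    (hℓ : ℓ.Prime) (hℓ2 : ℓ ≠ 2) (hℓN : ¬ ℓ ∣ N) (hA : A.LiesOverPrime ℓ) {m : ℕ} (hm : 1 ≤ m)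
    (hmℓ : ¬ ℓ ∣ m) (hm5 : ∀ r : ℕ, r.Prime → r ∣ m → 5 ≤ r) {ut : FresBar N A} (hut : ut ≠ 0)
    (hdiv : ∀ Q : Place 𝕜 (FresBar N A), (m : ℤ) ∣ Q.ord ut) :
    ∃ u : (redDataBar N A).Rw, (redDataBar N A).red u = ut ∧
      ∀ P : Place Kb (FK N), (m : ℤ) ∣ P.ord ((u : (redDataBar N A).Rw) : FK N) := by
  have hle : FresBar N A ≤ FresBar (N * 2) A := FresBar_le_level N 2 A
  -- `ū` in the bigger residue field
  set ut' : FresBar (N * 2) A := IntermediateField.inclusion hle ut with hut'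
  have hut'0 : ut' ≠ 0 := (map_ne_zero (IntermediateField.inclusion hle)).2 hut
  have hdiv' : ∀ Q' : Place 𝕜 (FresBar (N * 2) A), (m : ℤ) ∣ Q'.ord ut' := by
    intro Q'
    exact dvd_ord_inclusion_of_dvd hle hfin (m : ℤ) ut hdiv Q'
  -- the lift at level `N·2`
  have hℓN2 : ¬ ℓ ∣ N * 2 := by
    intro h
    rcases (Nat.Prime.dvd_mul hℓ).1 h with h | h
    · exact hℓN h
    · exact hℓ2 ((Nat.prime_dvd_prime_iff_eq hℓ Nat.prime_two).1 h)
  obtain ⟨u₂, hred₂, hdiv₂⟩ := Fermat.Agent.GB.A.K2Gen.Bar.exists_lift_unit_bar (N * 2) A hℓ hℓN2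
    (fun e => absurd e hℓ2) (fun _ => Dvd.intro_left N rfl) hA hm hmℓ hut'0 hdiv'
  -- its norm
  obtain ⟨d, hmem, hd0, hd3, hredv⟩ := hNR u₂ ut (by rw [hred₂]; exact coe_inclusion' hle ut)
  have hu₂0 : ((u₂ : (redDataBar (N * 2) A).Rw) : FK (N * 2)) ≠ 0 :=
    Fermat.Agent.GB.A.A5.KerRedUp.coe_ne_zero_of_red_ne_zero (by rw [hred₂]; exact hut'0)
  have hvdiv : ∀ P : Place Kb (FK N), (m : ℤ) ∣ P.ord
      (normAlong (alphaB N 2) ((u₂ : (redDataBar (N * 2) A).Rw) : FK (N * 2))) := by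
    intro P
    exact normUnits_mem N 2 m (Units.mk0 _ hu₂0) (fun Q => hdiv₂ Q) P
  exact exists_lift_of_pow (redDataBar N A) (coprime_of_le_three hm5 hd0 hd3) hut ⟨_, hmem⟩ hredv
    hvdiv

/-- **torsion lifting at EVERY good level** (`ℓ` odd, `ℓ ∤ N`, `ℓ ∤ m`, prime factors of `m` at
least `5`), given (N2) at the odd levels. -/
theorem exists_lift_unit_bar_all
    (hN2 : ¬ 2 ∣ N → ResFinHyp N A ∧ NormRedHyp N A) {ℓ : ℕ}
    (hℓ : ℓ.Prime) (hℓ2 : ℓ ≠ 2) (hℓN : ¬ ℓ ∣ N) (hA : A.LiesOverPrime ℓ) {m : ℕ} (hm : 1 ≤ m)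
    (hmℓ : ¬ ℓ ∣ m) (hm5 : ∀ r : ℕ, r.Prime → r ∣ m → 5 ≤ r) {ut : FresBar N A} (hut : ut ≠ 0)
    (hdiv : ∀ Q : Place 𝕜 (FresBar N A), (m : ℤ) ∣ Q.ord ut) :
    ∃ u : (redDataBar N A).Rw, (redDataBar N A).red u = ut ∧
      ∀ P : Place Kb (FK N), (m : ℤ) ∣ P.ord ((u : (redDataBar N A).Rw) : FK N) := by
  by_cases h2N : 2 ∣ N
  · exact Fermat.Agent.GB.A.K2Gen.Bar.exists_lift_unit_bar N A hℓ hℓN (fun e => absurd e hℓ2)
      (fun _ => h2N) hA hm hmℓ hut hdiv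
  · exact exists_lift_unit_bar_of_normRed (hN2 h2N).1 (hN2 h2N).2 hℓ hℓ2 hℓN hA hm hmℓ hm5 hut hdiv

end Modular

/-! ### node A5 without side conditions (re-run of helper42's `KerRedUp`) -/

section K1

open Fermat.Agent.GH.Inst Fermat.Agent.GK.AL Fermat.Agent.GK.UqKronecker Fermat.Agent.GK.UTr
  Fermat.Agent.GK.PsiFNGood Fermat.Agent.GK.QS Fermat.Agent.GK.New Fermat.Agent.GK.Tate.KumHecke
  Fermat.Agent.GB.A.FP Fermat.Agent.GB.A.A5.WCopy Fermat.Agent.GB.A.A5.KerRedUp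

variable {q : ℕ} [NeZero q] (A : ValuationSubring Kb) (hA : A.LiesOverPrime q)
variable (N' : ℕ) [NeZero N'] [NeZero (N' * q)] (h' : ExactDvd q (N' * q))

local notation "𝕜" => ResidueField A

/-- the lifting statement at the good level `N'` -/
def LiftHyp (m : ℕ) : Prop :=
  ∀ {ut : FresBar N' A}, ut ≠ 0 → (∀ Q : Place 𝕜 (FresBar N' A), (m : ℤ) ∣ Q.ord ut) →
    ∃ u : (redDataBar N' A).Rw, (redDataBar N' A).red u = ut ∧
      ∀ P : Place Kb (FK N'), (m : ℤ) ∣ P.ord ((u : (redDataBar N' A).Rw) : FK N')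

include hA h' in
/-- helper42's `KerRedUp.exists_sub_aUp_mem_kerRed` with the lift as a hypothesis (same proof). -/
theorem exists_sub_aUp_mem_kerRed_of_lift {m : ℕ} (hlift : LiftHyp A N' m)
    (u : pDivUnits Kb (FK (N' * q)) m)
    (h1 : ((u : (FK (N' * q))ˣ) : FK (N' * q)) ∈ (redDataBar (N' * q) A).Rw)
    (hr : (redDataBar (N' * q) A).red ⟨((u : (FK (N' * q))ˣ) : FK (N' * q)), h1⟩ ≠ 0)
    (hd : ∀ Q : Place 𝕜 (FresBar (N' * q) A),
      (m : ℤ) ∣ Q.ord ((redDataBar (N' * q) A).red ⟨((u : (FK (N' * q))ˣ) : FK (N' * q)), h1⟩)) :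
    ∃ x₁ : Additive (Kum Kb (FK N') m),
      Additive.ofMul (Kum.mk u) - aUp N' q m x₁ ∈ kerRed (N' * q) A m := by
  set ub : FresBar (N' * q) A :=
    (redDataBar (N' * q) A).red ⟨((u : (FK (N' * q))ˣ) : FK (N' * q)), h1⟩ with hub_def
  -- transport to the residue field of the good level
  have hEq : FresBar (N' * q) A = FresBar N' A := FresBar_mul_eq A hA N' h'
  have hubT : (ub : LaurentSeries 𝕜) ∈ FresBar N' A := hEq ▸ ub.2
  set ub' : FresBar N' A := ⟨(ub : LaurentSeries 𝕜), hubT⟩ with hub'_def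
  have hubL : (ub : LaurentSeries 𝕜) ≠ 0 := fun h => hr (ZeroMemClass.coe_eq_zero.mp h)
  have hub'0 : ub' ≠ 0 := fun h0 => hubL ((ZeroMemClass.coe_eq_zero (x := ub')).mpr h0)
  have hd' : ∀ Q : Place 𝕜 (FresBar N' A), (m : ℤ) ∣ Q.ord ub' :=
    forall_dvd_ord_of_eq hEq (m : ℤ) (ub : LaurentSeries 𝕜) ub.2 hubT hd
  -- the lift at the good level
  obtain ⟨v₁, hred₁', hdiv₁⟩ := hlift hub'0 hd'
  have hv₁0 : ((v₁ : (redDataBar N' A).Rw) : FK N') ≠ 0 :=
    coe_ne_zero_of_red_ne_zero (by rw [hred₁']; exact hub'0)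
  set u₁ : pDivUnits Kb (FK N') m := ⟨Units.mk0 _ hv₁0, fun P => hdiv₁ P⟩ with hu₁_def
  have hu₁ : ((u₁ : (FK N')ˣ) : FK N') ∈ (redDataBar N' A).Rw := v₁.2
  have hred₁ : (redDataBar N' A).red ⟨((u₁ : (FK N')ˣ) : FK N'), hu₁⟩ = ub' := hred₁'
  -- its pull-back to level `N' q`
  have hα : alphaB N' q ((u₁ : (FK N')ˣ) : FK N') ∈ (redDataBar (N' * q) A).Rw :=
    (alpha_mem_RwBar_iff N' q A _).mpr hu₁
  have hαred : (redDataBar (N' * q) A).red ⟨alphaB N' q ((u₁ : (FK N')ˣ) : FK N'), hα⟩ = ub := by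
    apply Subtype.ext
    exact (coe_red_alpha N' q A ⟨((u₁ : (FK N')ˣ) : FK N'), hu₁⟩ hα).trans
      (congrArg (fun z : FresBar N' A => (z : LaurentSeries 𝕜)) hred₁)
  refine ⟨Additive.ofMul (Kum.mk u₁), ?_⟩
  rw [aUp_mk]
  refine ofMul_sub_mem_kerRedW (W := RingEquiv.refl (FK (N' * q))) u
    ⟨alphaUnits N' q u₁, alphaUnits_mem N' q m u₁ u₁.2⟩ ?_
  show IsCPrin (hasGaussFrac_bar (N' * q) A)
    (((u : (FK (N' * q))ˣ) : FK (N' * q)) / alphaB N' q ((u₁ : (FK N')ˣ) : FK N'))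
  refine IsPrin.isCPrin ?_
  -- `u / α u₁` is a principal unit
  have hαi : (alphaB N' q ((u₁ : (FK N')ˣ) : FK N'))⁻¹ ∈ (redDataBar (N' * q) A).Rw :=
    inv_mem_of_red_ne_zero (R := redDataBar (N' * q) A) ⟨_, hα⟩ (by rw [hαred]; exact hr)
  have hmem : ((u : (FK (N' * q))ˣ) : FK (N' * q)) / alphaB N' q ((u₁ : (FK N')ˣ) : FK N') ∈
      (redDataBar (N' * q) A).Rw := by
    rw [div_eq_mul_inv]
    exact (redDataBar (N' * q) A).Rw.mul_mem _ _ h1 hαi
  refine ⟨hmem, ?_⟩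
  have hred : (redDataBar (N' * q) A).red ⟨_, hmem⟩ = 1 := by
    have e : (⟨_, hmem⟩ : (redDataBar (N' * q) A).Rw) =
        ⟨((u : (FK (N' * q))ˣ) : FK (N' * q)), h1⟩ * ⟨_, hαi⟩ :=
      Subtype.ext (div_eq_mul_inv _ _)
    rw [e, map_mul,
      red_inv_of_red_ne_zero (R := redDataBar (N' * q) A) ⟨_, hα⟩
        (by rw [hαred]; exact hr) hαi, hαred]
    exact mul_inv_cancel₀ hr
  have hred' := congrArg (fun z : FresBar (N' * q) A => (z : LaurentSeries 𝕜)) hred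
  exact hred'

include hA h' in
/-- helper56's `K1Stmt` from the lifting statement -/
theorem k1Stmt_of_lift {m : ℕ} (hlift : LiftHyp A N' m) : K1Stmt A m (N' := N') (q := q) :=
  fun u h1 hr hd => exists_sub_aUp_mem_kerRed_of_lift A hA N' h' hlift u h1 hr hd

include hA h' in
/-- **`K1Stmt` without side conditions**, hypothesis form on (N2) at the odd levels -/
theorem k1Stmt_all (hq2 : q ≠ 2) (hN2 : ¬ 2 ∣ N' → ResFinHyp N' A ∧ NormRedHyp N' A) {m : ℕ}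
    (hm : 1 ≤ m) (hqm : ¬ q ∣ m) (hm5 : ∀ r : ℕ, r.Prime → r ∣ m → 5 ≤ r) :
    K1Stmt A m (N' := N') (q := q) :=
  k1Stmt_of_lift A hA N' h' fun hut hdiv =>
    exists_lift_unit_bar_all hN2 h'.prime hq2 (not_dvd_good N' h') hA hm hqm hm5 hut hdiv

include hA in
/-- **node A5 without side conditions**, hypothesis form on (N2) at the odd levels -/
theorem abHyp_all (hq2 : q ≠ 2) (hN2 : ¬ 2 ∣ N' → ResFinHyp N' A ∧ NormRedHyp N' A)
    (S : Finset ℕ) (m : ℕ) [NeZero m]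
    (hqm : ¬ q ∣ m) (hm5 : ∀ r : ℕ, r.Prime → r ∣ m → 5 ≤ r) {ζ : ℂ} (hζ : IsPrimitiveRoot ζ m)
    (hN'S : ∀ r : ℕ, r.Prime → r ∣ N' → r ∈ S) (hMS : ∀ r : ℕ, r.Prime → r ∣ N' * q → r ∈ S)
    (hmS : ∀ r : ℕ, r.Prime → r ∣ m → r ∈ S)
    (P : MvPolynomial (PrimeIdx S) ℤ)
    (hP : MvPolynomial.aeval (TfamH (N' := N') (S := S) hN'S) P = 0) :
    AbHyp h' A m (kumHecke (N' * q) (↑S : Set ℕ) m hζ (MvPolynomial.aeval (TfamH hMS) P)) :=
  Fermat.Agent.GB.A.A5.AbHypPlug.abHyp_of_k1Stmt h' A S m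
    (k1Stmt_all A hA N' h' hq2 hN2 (Nat.one_le_iff_ne_zero.mpr (NeZero.ne m)) hqm hm5)
    hζ hN'S hMS hmS P hP

end K1

end Fermat.Agent.GB.A.Desc.LiftOdd
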