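/-
GATE-B (S38/S43) / CASE A, node GB-A-DESC-ASSEMBLY, final file (helper28):
**`FP.NodeHyp h A m` (node A4) at EVERY level `M` with `q ∥ M`, `q` odd, `A ∣ q`, for every `m`
all of whose prime factors are `≥ 5`** — no binder left.

* `dvd_ord_of_inclAlgebra` : (P1, helper48 `PlaceExt`) in the spelling of the inclusion algebra
  `(IntermediateField.inclusion hle).toRingHom.toAlgebra` used by (P3, helper81 `ResDeg`);
* `placeDesc_two`  : `PlaceDesc M 2 A m` (place-divisibility by `m` descends along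
  `FresBar M A ⊆ FresBar (M·2) A`: finite separable of degree `≤ 3`, so `e(w | v) ≤ 3` is prime
  to `m`);
* `nodeHyp_all`    : helper84's `A4/LevelFour.nodeHyp_of_four_dvd` at level `M·4` + descent twice.
-/
import Fermat.Agent.GB.A.Desc.NodeAll
import Fermat.Agent.GB.A.Desc.ResDeg

set_option autoImplicit false

noncomputable section

namespace Fermat.Agent.GB.A.Desc

open ModularCurve IsLocalRing AlgebraicCurve HahnSeries
open Fermat.Agent.S24 Fermat.Agent.GJ.J1 Fermat.Agent.GJ.J1.Val
open Fermat.Agent.GJ.KumGroup Fermat.Agent.GJ.Kum.KumType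
open Fermat.Agent.GK.UqKronecker Fermat.Agent.GK.AL Fermat.Agent.GK.SS
open Fermat.Agent.GB.A.FP

section Gen

open IntermediateField

variable {k E : Type*} [Field k] [Field E] [Algebra k E] {F F' : IntermediateField k E}
  (hle : F ≤ F')

/-- **(P1), inclusion-algebra form** -/
theorem dvd_ord_of_inclAlgebra
    (hfin : @FiniteDimensional F F' _ _ (inclAlgebra hle).toModule)
    (hsep : @Algebra.IsSeparable F F' _ _ (inclAlgebra hle)) (m : ℕ)
    (hm : ∀ e : ℕ, 0 < e → e ≤ @Module.finrank F F' _ _ (inclAlgebra hle).toModule →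
      Nat.Coprime e m)
    (x : F) (x' : F') (hxx' : (x' : E) = (x : E))
    (hx' : ∀ w : Place k F', (m : ℤ) ∣ w.ord x') (v : Place k F) : (m : ℤ) ∣ v.ord x := by
  letI := inclAlgebra hle
  have := inclAlgebra_isScalarTower hle
  have e : x' = algebraMap F F' x := Subtype.ext hxx'
  subst e
  exact PlaceExt.dvd_ord_of_forall_dvd_above (K := k) m hm x hx' v

end Gen

section Final

variable {M q : ℕ} [NeZero M]

/-- **(P1) + (P3)**: place-divisibility by `m` descends along `FresBar M A ⊆ FresBar (M·2) A`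
(`q ∥ M`, `q` odd, `A ∣ q`, all prime factors of `m` are `≥ 5`). -/
theorem placeDesc_two (h : ExactDvd q M) (hq2 : q ≠ 2) {A : ValuationSubring Kb}
    (hA : A.LiesOverPrime q) {m : ℕ} (hm : ∀ r : ℕ, r.Prime → r ∣ m → 5 ≤ r) :
    PlaceDesc M 2 A m := by
  intro x x' hxx' hx' Q
  have hle : FresBar M A ≤ FresBar (M * 2) A := FresBar_le_level M 2 A
  refine dvd_ord_of_inclAlgebra hle
    (ResDeg.finiteDimensional_FresBar_mul_two A h hA hq2 hle)
    (ResDeg.isSeparable_FresBar_mul_two A h hA hle) m (fun e he hle' => ?_) x x' hxx' hx' Q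
  exact coprime_of_le_three hm he
    (hle'.trans (ResDeg.finrank_FresBar_mul_two_le A h hA hq2 hle))

/-- **(A4) at every level**: `q ∥ M`, `q` odd, `A ∣ q`, all prime factors of `m` are `≥ 5`
(e.g. `m = p ≥ 5` prime). For an `I_A`-fixed `m`-divisible unit of `F_M` which is a unit for both
Gauss valuations, both reductions are `m`-divisible units of the residue function field. -/
theorem nodeHyp_all (h : ExactDvd q M) (hq2 : q ≠ 2) {A : ValuationSubring Kb}
    (hA : A.LiesOverPrime q) {m : ℕ} (hm : ∀ r : ℕ, r.Prime → r ∣ m → 5 ≤ r) :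
    NodeHyp h A m :=
  nodeHyp_of_placeDesc h hq2 hA m (placeDesc_two h hq2 hA hm)
    (placeDesc_two (exactDvd_mul_two h hq2) hq2 hA hm)

/-- the case `m = p` prime, `5 ≤ p` -/
theorem nodeHyp_prime (h : ExactDvd q M) (hq2 : q ≠ 2) {A : ValuationSubring Kb}
    (hA : A.LiesOverPrime q) {p : ℕ} (hp : p.Prime) (hp5 : 5 ≤ p) : NodeHyp h A p :=
  nodeHyp_all h hq2 hA fun r hr hrp => by
    rw [(Nat.prime_dvd_prime_iff_eq hr hp).1 hrp]
    exact hp5

end Final

end Fermat.Agent.GB.A.Desc
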