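/-
GATE-B (S38/S43) / CASE A, node GB-A5-DESC, leaf N2, HEDGE copy (helper28; owner of N2 = helper81,
`GB/A/Desc/NormInst.lean` — this file is only used if that one is late): the instance of
`NormRed.norm_red_of_algebraMap` at `F_{N'} ⊆ F_{N'·2}` with the Gauss valuations at a prime
`q ∤ N'·2`, and **CASE A without binder**.

* `norm_red_inclusion` : (N1) for two pairs of intermediate fields `F ≤ F'`, `k ≤ k'` with the
  inclusion algebras and the degrees in `relfinrank` form;
* `relfinrank_FN`, `relfinrank_FresBar_two` : `[F_{N·2} : F_N] · ψ(N) = ψ(N·2)` and the same for the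
  residue fields at a good prime — so the Gauss valuation is inert;
* `resFinHyp`, `normRedHyp` : the two binders of `LiftOdd`;
* `fpInputs`, **`caseA38 : GB.Top.S43Frey.CaseA38`**.
-/
import Fermat.Agent.GB.A.FPInst
import Fermat.Agent.GB.A.Desc.NormRed
import Fermat.Agent.GB.A.Desc.ResDeg
import Fermat.Agent.GJ.AuxL.Chart

set_option autoImplicit false

noncomputable section

namespace Fermat.Agent.GB.A.Desc.NormInstH

open ModularCurve IsLocalRing AlgebraicCurve HahnSeries IntermediateField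
open Fermat.Agent.S24 Fermat.Agent.S24_helper62 Fermat.Agent.GJ.J1 Fermat.Agent.GJ.J1.Val
open Fermat.Agent.GJ.KumGroup Fermat.Agent.GJ.Kum.KumType Fermat.Agent.GJ.HN
open Fermat.Agent.GJ.HInputs Fermat.Agent.GB.A.Desc Fermat.Agent.GB.A.Desc.LiftOdd

/-! ### (N1) for inclusions of intermediate fields -/

section Gen

variable {K E : Type*} [Field K] [Field E] [Algebra K E] {F F' : IntermediateField K E}
  (hF : F ≤ F') {κ Eκ : Type*} [Field κ] [Field Eκ] [Algebra κ Eκ]
  {k k' : IntermediateField κ Eκ} (hk : k ≤ k')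

include hk in
theorem norm_red_inclusion (V : ValuationSubring F) (V' : ValuationSubring F')
    (hVV' : ∀ x : F, inclusion hF x ∈ V' ↔ x ∈ V) (ρ : V →+* k) (ρ' : V' →+* k')
    (hρ' : Function.Surjective ρ') (hker : ∀ x : V, ρ x = 0 ↔ x ∈ maximalIdeal V)
    (hcompat : ∀ (x : V) (hx' : inclusion hF (x : F) ∈ V'),
      ((ρ' ⟨inclusion hF (x : F), hx'⟩ : k') : Eκ) = ((ρ x : k) : Eκ))
    (hpos : relfinrank k k' ≠ 0) (hdeg : relfinrank F F' = relfinrank k k')
    (u' : V') (ub : k) (hub : ((ρ' u' : k') : Eκ) = (ub : Eκ)) :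
    ∃ h : @Algebra.norm F F' _ _ (inclAlgebra hF) (u' : F') ∈ V,
      ρ ⟨_, h⟩ = ub ^ relfinrank k k' := by
  letI aF := inclAlgebra hF
  letI ak := inclAlgebra hk
  have hfin : FiniteDimensional k k' := ResDeg.finiteDimensional_inclusion k k' hk hpos
  have hdeg' : Module.finrank F F' = Module.finrank k k' := by
    rw [ResDeg.finrank_inclusion_eq_relfinrank F F' hF,
      ResDeg.finrank_inclusion_eq_relfinrank k k' hk, hdeg]
  have hc : ∀ x : V, ρ' ⟨algebraMap F F' x, (hVV' x).2 x.2⟩ = algebraMap k k' (ρ x) :=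
    fun x => Subtype.ext (hcompat x _)
  obtain ⟨h, hn⟩ := NormRed.norm_red_of_algebraMap V V' hVV' ρ ρ' hc hker hρ' hdeg' u' ub
    (Subtype.ext hub)
  refine ⟨h, ?_⟩
  rw [hn, ResDeg.finrank_inclusion_eq_relfinrank k k' hk]

end Gen

/-! ### the degrees -/

section Degrees

variable (N a : ℕ) [NeZero N] [NeZero a]

local notation "Qb'" => AlgebraicClosure ℚ

/-- `[F_N : ℚ̄(j)] = ψ(N)`, computed inside `ℚ̄((q))` -/
theorem relfinrank_FN :
    relfinrank Qb'⟮jqModC Qb'⟯ (modularFunctionFieldBar N) = dedekindPsi N := by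
  have h := Fermat.Agent.S24_helper62.finrank_FN N
  rw [Fermat.Agent.GK.Val.Degrees.finrank_adjoin_eq_relfinrank,
    Fermat.Agent.GJ.AuxL.coe_jF_eq] at h
  exact h

theorem jq_le_FN : Qb'⟮jqModC Qb'⟯ ≤ modularFunctionFieldBar N := by
  rw [adjoin_simple_le_iff, ← Fermat.Agent.GJ.AuxL.coe_jF_eq N]
  exact (jF N).2

/-- `ψ(N) · [F_{N a} : F_N] = ψ(N a)` -/
theorem psi_mul_relfinrank_FN :
    dedekindPsi N * relfinrank (modularFunctionFieldBar N) (modularFunctionFieldBar (N * a)) =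
      dedekindPsi (N * a) := by
  have h := relfinrank_mul_relfinrank (jq_le_FN N) (le_level N a)
  rw [relfinrank_FN N, relfinrank_FN (N * a)] at h
  exact h

variable (A : ValuationSubring Kb) {q : ℕ}

local notation "𝕜" => ResidueField A

/-- `ψ(N) · [FresBar (N a) A : FresBar N A] = ψ(N a)` at a prime `q ∤ N a` -/
theorem psi_mul_relfinrank_FresBar (hq : q.Prime) (hA : A.LiesOverPrime q) (hqN : ¬ q ∣ N * a) :
    dedekindPsi N * relfinrank (FresBar N A) (FresBar (N * a) A) = dedekindPsi (N * a) := by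
  have : Fact q.Prime := ⟨hq⟩
  have hqN' : ¬ q ∣ N := fun hd => hqN (hd.mul_right a)
  have hle1 : 𝕜⟮jqModC 𝕜⟯ ≤ FresBar N A := by
    rw [adjoin_simple_le_iff]
    exact Fermat.Agent.GK.Val.Degrees.jqModC_mem_FresBar N A
  have h := relfinrank_mul_relfinrank hle1 (FresBar_le_level N a A)
  rw [Fermat.Agent.GK.Val.Degrees.relfinrank_FresBar N q A hqN' hA,
    Fermat.Agent.GK.Val.Degrees.relfinrank_FresBar (N * a) q A hqN hA] at h
  exact h

theorem dedekindPsi_pos' : 0 < dedekindPsi N := by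
  rw [← Fermat.Agent.S24_helper62.finrank_FN N]
  have := Fermat.Agent.GJ.J1.Val.finiteDimensional_jF N
  exact Module.finrank_pos

/-- **the Gauss valuation is inert in `F_{N a} / F_N`** at a prime `q ∤ N a` -/
theorem relfinrank_FN_eq_FresBar (hq : q.Prime) (hA : A.LiesOverPrime q) (hqN : ¬ q ∣ N * a) :
    relfinrank (modularFunctionFieldBar N) (modularFunctionFieldBar (N * a)) =
      relfinrank (FresBar N A) (FresBar (N * a) A) := by
  have h1 := psi_mul_relfinrank_FN N a
  have h2 := psi_mul_relfinrank_FresBar N a A hq hA hqN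
  exact Nat.eq_of_mul_eq_mul_left (dedekindPsi_pos' N) (h1.trans h2.symm)

theorem relfinrank_FresBar_pos (hq : q.Prime) (hA : A.LiesOverPrime q) (hqN : ¬ q ∣ N * a) :
    0 < relfinrank (FresBar N A) (FresBar (N * a) A) := by
  have h2 := psi_mul_relfinrank_FresBar N a A hq hA hqN
  have h3 := dedekindPsi_pos' (N * a)
  rw [← h2] at h3
  exact Nat.pos_of_mul_pos_left h3

theorem relfinrank_FresBar_two_le (hq : q.Prime) (hA : A.LiesOverPrime q) (hqN : ¬ q ∣ N * 2) :
    relfinrank (FresBar N A) (FresBar (N * 2) A) ≤ 3 := by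
  have h2 := psi_mul_relfinrank_FresBar N 2 A hq hA hqN
  have h3 := ResDeg.dedekindPsi_mul_two_le N (NeZero.ne N)
  rw [← h2, mul_comm 3] at h3
  exact Nat.le_of_mul_le_mul_left h3 (dedekindPsi_pos' N)

end Degrees

/-! ### the two binders of `LiftOdd` -/

section Plug

variable (N' : ℕ) [NeZero N'] (A : ValuationSubring Kb) {q : ℕ}

local notation "𝕜" => ResidueField A

theorem resFinHyp (hq : q.Prime) (hA : A.LiesOverPrime q) (hqN : ¬ q ∣ N' * 2) :
    ResFinHyp N' A :=
  ResDeg.finiteDimensional_inclusion _ _ (FresBar_le_level N' 2 A)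
    (relfinrank_FresBar_pos N' 2 A hq hA hqN).ne'

theorem normRedHyp (hq : q.Prime) (hA : A.LiesOverPrime q) (hqN : ¬ q ∣ N' * 2) :
    NormRedHyp N' A := by
  intro u₂ ub hred
  have hF : modularFunctionFieldBar N' ≤ modularFunctionFieldBar (N' * 2) := le_level N' 2
  have hk : FresBar N' A ≤ FresBar (N' * 2) A := FresBar_le_level N' 2 A
  obtain ⟨h, hn⟩ := norm_red_inclusion hF hk (redDataBar N' A).Rw (redDataBar (N' * 2) A).Rw
    (fun x => alphaB_mem_Rw1_iff N' 2 A x) (redDataBar N' A).red (redDataBar (N' * 2) A).red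
    (redDataBar (N' * 2) A).red_surjective (redDataBar N' A).red_eq_zero_iff
    (fun x hx' => coe_red1_alphaB N' 2 A (x : FK N') x.2 hx')
    (relfinrank_FresBar_pos N' 2 A hq hA hqN).ne'
    (relfinrank_FN_eq_FresBar N' 2 A hq hA hqN) u₂ ub hred
  exact ⟨relfinrank (FresBar N' A) (FresBar (N' * 2) A), h,
    relfinrank_FresBar_pos N' 2 A hq hA hqN, relfinrank_FresBar_two_le N' A hq hA hqN, hn⟩

end Plug

/-! ### CASE A -/

section CaseA

open Fermat.Agent.GK.AL Fermat.Agent.GB.A.A6.Toric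

/-- **the FP inputs** (A3 + A4 + A5), no binder. -/
theorem fpInputs : FPInputs := by
  intro p _ hp5 N' q _ _ h hq2 hqp A hA
  have hp : p.Prime := Fact.out
  have hq : q.Prime := Fact.out
  have hm5 : ∀ r : ℕ, r.Prime → r ∣ p → 5 ≤ r := fun r hr hrp => by
    rw [(Nat.prime_dvd_prime_iff_eq hr hp).1 hrp]
    exact hp5
  have hqp' : ¬ q ∣ p := fun hd => hqp ((Nat.prime_dvd_prime_iff_eq hq hp).1 hd)
  have hqN' : ¬ q ∣ N' := Fermat.Agent.GK.PsiFNGood.not_dvd_good N' h
  have hqN : ¬ q ∣ N' * 2 := by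
    intro hd
    rcases (Nat.Prime.dvd_mul hq).1 hd with hd | hd
    · exact hqN' hd
    · exact hq2 ((Nat.prime_dvd_prime_iff_eq hq Nat.prime_two).1 hd)
  refine ⟨Fermat.Agent.GB.A.FPInst.a3 p N' q h A hA, nodeHyp_prime h hq2 hA hp hp5, ?_⟩
  intro S hN'S hMS hmS ζ hζ P hP
  exact abHyp_all A hA N' h hq2
    (fun _ => ⟨resFinHyp N' A hq hA hqN, normRedHyp N' A hq hA hqN⟩) S p hqp' hm5 hζ hN'S hMS hmS
    P hP

/-- **CASE A (Mazur's principle at `q ≠ p`, `q` odd, `5 ≤ p`) in the S38 shape.** -/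
theorem caseA38 : Fermat.Agent.GB.Top.S43Frey.CaseA38 :=
  caseA38_of_fpInputs fpInputs

end CaseA

end Fermat.Agent.GB.A.Desc.NormInstH
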