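/-
GATE-B / CASE A / GB-A5-DESC-N2 (helper81) = leaf (N2) of helper28's removal of the side condition
`(q = 3 → 2 ∣ N')` of `KerRedUp.abHyp` (board 5739).

The instance side of the generic "norm commutes with reduction for an inert extension of valuation
rings" lemma (N1, `GB/A/Desc/NormRed.norm_mem_and_red`, helper28): good level `N'` (`q ∤ N'`, `q`
odd, `A` over `q`), `F = F_{N'} ⊂ F' = F_{N'·2}` with the algebra `algebraAlong (alphaB N' 2)`
(the algebra of `normAlong (alphaB N' 2)`), `V/V' = Rw₁`, `ρ/ρ' = red₁`, `k = FresBar N' A ⊂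
k' = FresBar (N'·2) A` with the inclusion algebra.  Every binder of N1 is proved here in the
PINNED shape:

* `hVV'`     : `algebraMap F F' x ∈ V' ↔ x ∈ V`;
* `hcompat`  : `ρ' (algebraMap x) = algebraMap k k' (ρ x)`;
* `finite_F`, `finite_k` : the two `FiniteDimensional` instances;
* `hdeg`     : `[F' : F] = ψ(2N')/ψ(N') = [k' : k]` (the Gauss valuation is INERT);
* `finrank_k_odd` : `[k' : k] = 3` for `N'` odd; `finrank_k_le` : `≤ 3` always;
* `norm_algebraMap_k` : `Norm_{k'/k} (ū) = ū ^ [k' : k]` for `ū ∈ k`.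
-/
import Mathlib
import Fermat.Agent.GB.A.Desc.Level
import Fermat.Agent.GB.A.Desc.ResDeg
import Fermat.Agent.GB.A.Desc.NormRed

set_option autoImplicit false
set_option linter.style.haveILetI false
set_option linter.unusedSectionVars false

noncomputable section

namespace Fermat.Agent.GB.A.Desc.NormInst

open IntermediateField IsLocalRing ModularCurve HahnSeries AlgebraicCurve
open Fermat.Agent.S24 Fermat.Agent.S24_helper62 Fermat.Agent.GJ.J1 Fermat.Agent.GJ.J1.Val
open Fermat.Agent.GJ.KumGroup Fermat.Agent.GJ.HN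
open Fermat.Agent.GK.UTr Fermat.Agent.GK.AL
open Fermat.Agent.GB.A.Desc Fermat.Agent.GB.A.Desc.ResDeg

/-! ### generic: the inclusion algebra of two intermediate fields -/

section Generic

variable {k Ω : Type*} [Field k] [Field Ω] [Algebra k Ω]

/-- the algebra map of the inclusion algebra is the identity on the ambient field -/
theorem coe_algebraMap_inclusion (E1 E2 : IntermediateField k Ω) (h12 : E1 ≤ E2) (y : E1) :
    ((@algebraMap E1 E2 _ _ (inclusion h12).toRingHom.toAlgebra y : E2) : Ω) = (y : Ω) := rfl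

end Generic

variable (N' : ℕ) [NeZero N'] (A : ValuationSubring Kb)

local notation "𝕜" => ResidueField A

/-- the algebra `F_{N'} → F_{N'·2}` of `normAlong (alphaB N' 2)` -/
abbrev algF : Algebra (FK N') (FK (N' * 2)) := algebraAlong (alphaB N' 2)

/-- the inclusion algebra `FresBar N' A → FresBar (N'·2) A` -/
abbrev algK : Algebra (FresBar N' A) (FresBar (N' * 2) A) :=
  (inclusion (FresBar_le_level N' 2 A)).toRingHom.toAlgebra

/-- (hVV') the Gauss valuation ring of level `N'·2` restricts to that of level `N'` -/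
theorem hVV' (x : FK N') :
    @algebraMap (FK N') (FK (N' * 2)) _ _ (algF N') x ∈ (redDataBar (N' * 2) A).Rw ↔
      x ∈ (redDataBar N' A).Rw :=
  alphaB_mem_Rw1_iff N' 2 A x

/-- the algebra map `F_{N'} → F_{N'·2}` is `alphaB N' 2` -/
theorem algebraMap_algF (x : FK N') :
    @algebraMap (FK N') (FK (N' * 2)) _ _ (algF N') x = alphaB N' 2 x := rfl

/-- the algebra map `FresBar N' A → FresBar (N'·2) A` is the identity on Laurent series -/
theorem coe_algebraMap_algK (y : FresBar N' A) :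
    ((@algebraMap (FresBar N' A) (FresBar (N' * 2) A) _ _ (algK N' A) y : FresBar (N' * 2) A) :
      LaurentSeries 𝕜) = (y : LaurentSeries 𝕜) :=
  coe_algebraMap_inclusion (FresBar N' A) (FresBar (N' * 2) A) (FresBar_le_level N' 2 A) y

/-- (hcompat) `red₁` commutes with the change of level -/
theorem hcompat (x : (redDataBar N' A).Rw) :
    (redDataBar (N' * 2) A).red
        ⟨@algebraMap (FK N') (FK (N' * 2)) _ _ (algF N') (x : FK N'), (hVV' N' A x).2 x.2⟩ =
      @algebraMap (FresBar N' A) (FresBar (N' * 2) A) _ _ (algK N' A)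
        ((redDataBar N' A).red x) := by
  apply Subtype.ext
  rw [coe_algebraMap_algK]
  exact coe_red1_alphaB N' 2 A (x : FK N') x.2 ((alphaB_mem_Rw1_iff N' 2 A (x : FK N')).2 x.2)

/-- `F_{N'·2} / F_{N'}` is finite -/
theorem finite_F : @FiniteDimensional (FK N') (FK (N' * 2)) _ _ (algF N').toModule := by
  obtain ⟨-, -, -, hfin, -, -⟩ := Fermat.Agent.GJ.HInputs.heckeInputsAlong_bar N' 2
  exact hfin

/-- `[F_N : ℚ̄(j)] = ψ(N)` inside `ℚ̄((q))` -/
theorem relfinrank_FK (N : ℕ) [NeZero N] :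
    relfinrank (Kb⟮jqModC Kb⟯ : IntermediateField Kb (LaurentSeries Kb)) (modularFunctionFieldBar N)
      = dedekindPsi N := by
  have h := Fermat.Agent.S24_helper62.finrank_FN N
  rw [Fermat.Agent.GK.Val.Degrees.finrank_adjoin_eq_relfinrank, Fermat.Agent.S24.Degree.coe_jF'] at h
  exact h

theorem dedekindPsi_pos (N : ℕ) [NeZero N] : 0 < dedekindPsi N := by
  rw [← Fermat.Agent.S24_helper62.finrank_FN N]
  have := Fermat.Agent.GJ.J1.Val.finiteDimensional_jF N
  exact Module.finrank_pos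

/-- `ψ(N') · [F_{N'·2} : F_{N'}] = ψ(N'·2)` -/
theorem psi_mul_finrank_F :
    dedekindPsi N' * @Module.finrank (FK N') (FK (N' * 2)) _ _ (algF N').toModule =
      dedekindPsi (N' * 2) := by
  have h1 : @Module.finrank (FK N') (FK (N' * 2)) _ _ (algF N').toModule =
      relfinrank (modularFunctionFieldBar N') (modularFunctionFieldBar (N' * 2)) :=
    finrank_inclusion_eq_relfinrank _ _ (le_level N' 2)
  have hle1 : (Kb⟮jqModC Kb⟯ : IntermediateField Kb (LaurentSeries Kb)) ≤
      modularFunctionFieldBar N' := by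
    rw [adjoin_simple_le_iff, ← Fermat.Agent.S24.Degree.coe_jF' N']
    exact (jF N').2
  have hmul := relfinrank_mul_relfinrank hle1 (le_level N' 2)
  rw [relfinrank_FK N', relfinrank_FK (N' * 2)] at hmul
  rw [h1]
  exact hmul

variable {q : ℕ}

/-- `ψ(N') · [FresBar (N'·2) A : FresBar N' A] = ψ(N'·2)` at a good level, `q` odd -/
theorem psi_mul_relfinrank_k (hq : q.Prime) (hqN' : ¬ q ∣ N') (hq2 : q ≠ 2)
    (hA : A.LiesOverPrime q) :
    dedekindPsi N' * relfinrank (FresBar N' A) (FresBar (N' * 2) A) = dedekindPsi (N' * 2) := by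
  haveI : Fact q.Prime := ⟨hq⟩
  have hqN2 : ¬ q ∣ N' * 2 := fun hd => by
    rcases (Nat.Prime.dvd_mul hq).mp hd with h | h
    · exact hqN' h
    · exact hq2 ((Nat.prime_dvd_prime_iff_eq hq Nat.prime_two).mp h)
  have h1 := Fermat.Agent.GK.Val.Degrees.relfinrank_FresBar N' q A hqN' hA
  have h2 := Fermat.Agent.GK.Val.Degrees.relfinrank_FresBar (N' * 2) q A hqN2 hA
  have hle1 : 𝕜⟮jqModC 𝕜⟯ ≤ FresBar N' A := by
    rw [adjoin_simple_le_iff]
    exact Fermat.Agent.GK.Val.Degrees.jqModC_mem_FresBar N' A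
  have hmul := relfinrank_mul_relfinrank hle1 (FresBar_le_level N' 2 A)
  rw [h1, h2] at hmul
  exact hmul

/-- `ψ(N') · [k' : k] = ψ(N'·2)` for the inclusion algebra -/
theorem psi_mul_finrank_k (hq : q.Prime) (hqN' : ¬ q ∣ N') (hq2 : q ≠ 2)
    (hA : A.LiesOverPrime q) :
    dedekindPsi N' * @Module.finrank (FresBar N' A) (FresBar (N' * 2) A) _ _
      (algK N' A).toModule = dedekindPsi (N' * 2) := by
  have h1 : @Module.finrank (FresBar N' A) (FresBar (N' * 2) A) _ _ (algK N' A).toModule =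
      relfinrank (FresBar N' A) (FresBar (N' * 2) A) :=
    finrank_inclusion_eq_relfinrank _ _ (FresBar_le_level N' 2 A)
  rw [h1]
  exact psi_mul_relfinrank_k N' A hq hqN' hq2 hA

/-- **(hdeg)**: the Gauss valuation is inert in `F_{N'·2} / F_{N'}`:
`[F_{N'·2} : F_{N'}] = [FresBar (N'·2) A : FresBar N' A]` -/
theorem hdeg (hq : q.Prime) (hqN' : ¬ q ∣ N') (hq2 : q ≠ 2) (hA : A.LiesOverPrime q) :
    @Module.finrank (FK N') (FK (N' * 2)) _ _ (algF N').toModule =
      @Module.finrank (FresBar N' A) (FresBar (N' * 2) A) _ _ (algK N' A).toModule := by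
  have h1 := psi_mul_finrank_F N'
  have h2 := psi_mul_finrank_k N' A hq hqN' hq2 hA
  exact Nat.eq_of_mul_eq_mul_left (dedekindPsi_pos N') (h1.trans h2.symm)

/-- `FresBar (N'·2) A / FresBar N' A` is finite -/
theorem finite_k (hq : q.Prime) (hqN' : ¬ q ∣ N') (hq2 : q ≠ 2) (hA : A.LiesOverPrime q) :
    @FiniteDimensional (FresBar N' A) (FresBar (N' * 2) A) _ _ (algK N' A).toModule := by
  refine finiteDimensional_inclusion _ _ (FresBar_le_level N' 2 A) ?_
  intro h0
  have h := psi_mul_relfinrank_k N' A hq hqN' hq2 hA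
  rw [h0, mul_zero] at h
  exact (dedekindPsi_pos (N' * 2)).ne h

/-- `ψ(N'·2) = 3 ψ(N')` for `N'` odd -/
theorem dedekindPsi_mul_two_of_odd (hodd : ¬ 2 ∣ N') :
    dedekindPsi (N' * 2) = dedekindPsi N' * 3 := by
  have hcop : Nat.Coprime N' 2 := (Nat.coprime_comm.mp ((Nat.Prime.coprime_iff_not_dvd
    Nat.prime_two).mpr hodd))
  rw [Fermat.Agent.S20_helper27.dedekindPsi_mul hcop]
  have h1 : dedekindPsi 2 = 3 := by
    have h := Fermat.Agent.S20_helper27.dedekindPsi_prime_pow Nat.prime_two (k := 1) one_pos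
    simp only [pow_one, Nat.sub_self, pow_zero] at h
    exact h
  rw [h1]

/-- `[k' : k] = 3` for `N'` odd -/
theorem finrank_k_odd (hq : q.Prime) (hqN' : ¬ q ∣ N') (hq2 : q ≠ 2) (hA : A.LiesOverPrime q)
    (hodd : ¬ 2 ∣ N') :
    @Module.finrank (FresBar N' A) (FresBar (N' * 2) A) _ _ (algK N' A).toModule = 3 := by
  have h := psi_mul_finrank_k N' A hq hqN' hq2 hA
  rw [dedekindPsi_mul_two_of_odd N' hodd] at h
  exact Nat.eq_of_mul_eq_mul_left (dedekindPsi_pos N') h

/-- `[k' : k] ≤ 3` -/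
theorem finrank_k_le (hq : q.Prime) (hqN' : ¬ q ∣ N') (hq2 : q ≠ 2) (hA : A.LiesOverPrime q) :
    @Module.finrank (FresBar N' A) (FresBar (N' * 2) A) _ _ (algK N' A).toModule ≤ 3 := by
  have h := psi_mul_finrank_k N' A hq hqN' hq2 hA
  have hle := dedekindPsi_mul_two_le N' (NeZero.ne N')
  rw [← h, mul_comm 3] at hle
  exact Nat.le_of_mul_le_mul_left hle (dedekindPsi_pos N')

/-- **(N2)**: the norm `F_{N'·2} → F_{N'}` preserves the Gauss valuation ring and commutes with
the reduction: `red₁ (N u') = Norm_{k'/k} (red₁ u')`. -/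
theorem norm_mem_and_red_level (hq : q.Prime) (hqN' : ¬ q ∣ N') (hq2 : q ≠ 2)
    (hA : A.LiesOverPrime q) (u' : (redDataBar (N' * 2) A).Rw) :
    ∃ h : @Algebra.norm (FK N') (FK (N' * 2)) _ _ (algF N') (u' : FK (N' * 2)) ∈
        (redDataBar N' A).Rw,
      (redDataBar N' A).red ⟨_, h⟩ =
        @Algebra.norm (FresBar N' A) (FresBar (N' * 2) A) _ _ (algK N' A)
          ((redDataBar (N' * 2) A).red u') := by
  letI := algF N'
  letI := algK N' A
  haveI := finite_k N' A hq hqN' hq2 hA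
  exact Fermat.Agent.GB.A.Desc.NormRed.norm_mem_and_red (redDataBar N' A).Rw
    (redDataBar (N' * 2) A).Rw (hVV' N' A) (redDataBar N' A).red (redDataBar (N' * 2) A).red
    (hcompat N' A) (redDataBar N' A).red_eq_zero_iff (redDataBar (N' * 2) A).red_surjective
    (hdeg N' A hq hqN' hq2 hA) u'

/-- **(N2), the case used by the lift**: if `red₁ u'` is (as a Laurent series) an element `y` of the
small residue field, then `red₁ (N u') = y ^ [k' : k]`. -/
theorem norm_red_of_coe_eq (hq : q.Prime) (hqN' : ¬ q ∣ N') (hq2 : q ≠ 2)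
    (hA : A.LiesOverPrime q) (u' : (redDataBar (N' * 2) A).Rw) (y : FresBar N' A)
    (hy : (((redDataBar (N' * 2) A).red u' : FresBar (N' * 2) A) : LaurentSeries 𝕜) =
      (y : LaurentSeries 𝕜)) :
    ∃ h : @Algebra.norm (FK N') (FK (N' * 2)) _ _ (algF N') (u' : FK (N' * 2)) ∈
        (redDataBar N' A).Rw,
      (redDataBar N' A).red ⟨_, h⟩ =
        y ^ @Module.finrank (FresBar N' A) (FresBar (N' * 2) A) _ _ (algK N' A).toModule := by
  letI := algF N'
  letI := algK N' A
  haveI := finite_k N' A hq hqN' hq2 hA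
  have hx : (redDataBar (N' * 2) A).red u' =
      @algebraMap (FresBar N' A) (FresBar (N' * 2) A) _ _ (algK N' A) y :=
    Subtype.ext (hy.trans (coe_algebraMap_algK N' A y).symm)
  exact Fermat.Agent.GB.A.Desc.NormRed.norm_red_of_algebraMap (redDataBar N' A).Rw
    (redDataBar (N' * 2) A).Rw (hVV' N' A) (redDataBar N' A).red (redDataBar (N' * 2) A).red
    (hcompat N' A) (redDataBar N' A).red_eq_zero_iff (redDataBar (N' * 2) A).red_surjective
    (hdeg N' A hq hqN' hq2 hA) u' y hx

/-- the norm above is `normAlong (alphaB N' 2)` (the norm of `UTr.normUnits`) -/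
theorem norm_algF_eq_normAlong (v : FK (N' * 2)) :
    @Algebra.norm (FK N') (FK (N' * 2)) _ _ (algF N') v =
      Fermat.Agent.GJ.HInputs.normAlong (alphaB N' 2) v := rfl

end Fermat.Agent.GB.A.Desc.NormInst
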